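import Fermat.Agent.S19.RL.Residual
import Fermat.Agent.S19.Loc.Defs

/-!
# S19 / RL / Coord : coordinates on the kernel of reduction and the addition theorem

* `Rep u D`       : the divisor `D` (of degree `0`) represents the class `u : Pic0 K F`;
* `J1 hG`         : the classes of the divisors `B` of degree `0` with `rD hG B = 0`;
* `Config hG G g` : `g` fixed places with distinct reductions, invariant parameters, `ℓ(reduction) = 1`;
* `E.pts u`, `E.z u` : for `u ∈ J1` the unique points `P l` in the discs of `E.pt l` with `u = [∑ P l - ∑ E.pt l]`, and their coordinates;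
* `Config.isPoly_neg` (N'), `Config.isPoly_neg_add` (S') : consequences of the residual divisor lemma;
* `exists_coord`  : the target `Loc.Coord A (βG α.range) (J1 hG) z` of helper27's `S19/Loc`.
-/

set_option autoImplicit false
set_option linter.unusedSectionVars false

namespace Fermat.Agent.S19.RL

open AlgebraicCurve Fermat.Agent.S26 Fermat.Agent.S37.Red Fermat.Agent.S19.Geo0

/-! ### representatives of divisor classes -/

section Rep

variable {K F : Type*} [Field K] [Field F] [Algebra K F]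

/-- `D` has degree `0` and represents `u`. -/
def Rep (u : Pic0 K F) (D : Divisor K F) : Prop :=
  ∃ h : D ∈ Divisor.degZero (K := K) (F := F), Pic0.mk ⟨D, h⟩ = u

theorem exists_rep (u : Pic0 K F) : ∃ D, Rep u D := by
  obtain ⟨D, rfl⟩ := Pic0.mk_surjective u
  exact ⟨D, D.2, rfl⟩

theorem rep_zero : Rep (0 : Pic0 K F) 0 := ⟨zero_mem _, rfl⟩

theorem Rep.add {u u' : Pic0 K F} {D D' : Divisor K F} (h : Rep u D) (h' : Rep u' D') :
    Rep (u + u') (D + D') := by
  obtain ⟨h1, rfl⟩ := h
  obtain ⟨h2, rfl⟩ := h'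
  exact ⟨add_mem h1 h2, rfl⟩

theorem Rep.neg {u : Pic0 K F} {D : Divisor K F} (h : Rep u D) : Rep (-u) (-D) := by
  obtain ⟨h1, rfl⟩ := h
  exact ⟨neg_mem h1, rfl⟩

theorem Rep.sub {u u' : Pic0 K F} {D D' : Divisor K F} (h : Rep u D) (h' : Rep u' D') :
    Rep (u - u') (D - D') := by
  rw [sub_eq_add_neg, sub_eq_add_neg]; exact h.add h'.neg

theorem Rep.unique {u u' : Pic0 K F} {D : Divisor K F} (h : Rep u D) (h' : Rep u' D) : u = u' := by
  obtain ⟨h1, rfl⟩ := h
  obtain ⟨h2, rfl⟩ := h'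
  rfl

/-- (`QuotientAddGroup.eq`, `AddSubgroup.mem_addSubgroupOf`.) -/
theorem Rep.sub_mem_principal {u : Pic0 K F} {D D' : Divisor K F} (h : Rep u D) (h' : Rep u D') :
    D' - D ∈ Divisor.principal (K := K) (F := F) := by
  obtain ⟨h1, e1⟩ := h
  obtain ⟨h2, e2⟩ := h'
  have h3 : (QuotientAddGroup.mk (⟨D, h1⟩ : Divisor.degZero (K := K) (F := F)) : Pic0 K F)
      = QuotientAddGroup.mk (⟨D', h2⟩ : Divisor.degZero (K := K) (F := F)) := e1.trans e2.symm
  rw [QuotientAddGroup.eq, AddSubgroup.mem_addSubgroupOf] at h3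
  have h4 : -D + D' ∈ Divisor.principal (K := K) (F := F) := h3
  rwa [neg_add_eq_sub] at h4

theorem Rep.of_sub_mem_principal {u : Pic0 K F} {D D' : Divisor K F} (h : Rep u D)
    (hdeg : D' ∈ Divisor.degZero (K := K) (F := F))
    (h' : D' - D ∈ Divisor.principal (K := K) (F := F)) : Rep u D' := by
  obtain ⟨h1, e1⟩ := h
  refine ⟨hdeg, ?_⟩
  rw [← e1]
  symm
  refine QuotientAddGroup.eq.mpr ?_
  rw [AddSubgroup.mem_addSubgroupOf]
  change -D + D' ∈ Divisor.principal (K := K) (F := F)
  rwa [neg_add_eq_sub]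

theorem Rep.smul {u : Pic0 K F} {D : Divisor K F} (h : Rep u D) (σ : SemilinearAut K F) :
    Rep (σ • u) (σ • D) := by
  obtain ⟨h1, rfl⟩ := h
  exact ⟨SemilinearAut.smul_mem_degZero σ h1, rfl⟩

end Rep

variable {K k : Type*} [Field K] [Field k] {A : ValuationSubring K} {π : A →+* k}
variable {F Ft : Type*} [Field F] [Field Ft] [Algebra K F] [Algebra k Ft]
variable [IsAlgClosed K] [FF1 K F] [IsAlgClosed k] [FF1 k Ft]
variable {V : VFF A π F Ft} {y : F} {yt : Ft}

/-- principal divisors have degree zero (`S26.degree_divisorOf`). -/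
theorem mem_degZero_of_mem_principal {D : Divisor K F}
    (h : D ∈ Divisor.principal (K := K) (F := F)) : D ∈ Divisor.degZero (K := K) (F := F) := by
  obtain ⟨f, -, hf⟩ := h
  have hD : D = divisorOf f := by
    ext v
    rw [hf v, divisorOf_apply]
  rw [Divisor.mem_degZero, hD, degree_divisorOf]

/-- **the kernel of reduction.** -/
def J1 (hG : Good V y yt) : AddSubgroup (Pic0 K F) where
  carrier := {u | ∃ B, Rep u B ∧ rD hG B = 0}
  zero_mem' := ⟨0, rep_zero, map_zero _⟩
  add_mem' := by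
    rintro u u' ⟨B, hB, h0⟩ ⟨B', hB', h0'⟩
    exact ⟨B + B', hB.add hB', by rw [map_add, h0, h0', add_zero]⟩
  neg_mem' := by
    rintro u ⟨B, hB, h0⟩
    exact ⟨-B, hB.neg, by rw [map_neg, h0, neg_zero]⟩

theorem mem_J1 {hG : Good V y yt} {u : Pic0 K F} : u ∈ J1 hG ↔ ∃ B, Rep u B ∧ rD hG B = 0 := Iff.rfl

/-- A configuration. -/
structure Config (hG : Good V y yt) (G : Subgroup (SemilinearAut K F)) (g : ℕ) where
  pt : Fin g → Place K F
  t : Fin g → F
  param : ∀ l, IsParam hG G (t l) (pt l)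
  inj : Function.Injective (fun l => rP hG (pt l))
  ns : Module.finrank k (LSpace (rD hG (∑ l, Finsupp.single (pt l) (1 : ℤ)))) = 1

variable {hG : Good V y yt} {G : Subgroup (SemilinearAut K F)} {g : ℕ}

/-- `∑ E.pt l`. -/
noncomputable def Config.div (E : Config hG G g) : Divisor K F := ∑ l, Finsupp.single (E.pt l) (1 : ℤ)

/-- `P` is the family of points of `u` in the configuration `E`. -/
def IsPts (E : Config hG G g) (u : Pic0 K F) (P : Fin g → Place K F) : Prop :=
  (∀ l, rP hG (P l) = rP hG (E.pt l)) ∧ Rep u ((∑ l, Finsupp.single (P l) (1 : ℤ)) - E.div)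

open Classical in
/-- the points of `u` (junk `E.pt` if `u ∉ J1`). -/
noncomputable def Config.pts (E : Config hG G g) (u : Pic0 K F) : Fin g → Place K F :=
  if h : ∃ P, IsPts E u P then h.choose else E.pt

/-- the coordinates of `u`. -/
noncomputable def Config.z (E : Config hG G g) (u : Pic0 K F) (l : Fin g) : K :=
  val (E.pts u l) (E.t l)

/-- two configurations are disjoint if the reductions of their points are distinct. -/
def Config.Disj (E E' : Config hG G g) : Prop := ∀ l l', rP hG (E.pt l) ≠ rP hG (E'.pt l')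

theorem Config.Disj.symm {E E' : Config hG G g} (h : E.Disj E') : E'.Disj E :=
  fun l l' => (h l' l).symm

/-! ### existence and uniqueness of the points -/

theorem IsPts.mem_J1 {E : Config hG G g} {u : Pic0 K F} {P : Fin g → Place K F}
    (h : IsPts E u P) : u ∈ J1 hG := by
  obtain ⟨hd, hrep⟩ := h
  refine ⟨_, hrep, ?_⟩
  rw [map_sub, Config.div, map_sum, map_sum, sub_eq_zero]
  refine Finset.sum_congr rfl fun l _ => ?_
  rw [rD_single, rD_single, hd l]

/-- `Geo0.exists_unique_effective` for `D = B + E.div` (`rD D = rD E.div =: Ebar`, effective of degree `g`, `ℓ = 1`), then `Geo0.exists_points`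
(`Ebar = sumDiv (image)` because `E.inj`). -/
theorem exists_isPts (E : Config hG G g) (hg : IsGenus K F g) {u : Pic0 K F} (hu : u ∈ J1 hG) :
    ∃ P, IsPts E u P := by
  classical
  obtain ⟨B, hB, hB0⟩ := hu
  have hdivpos : ∀ v, 0 ≤ E.div v := by
    intro v
    rw [Config.div, Finsupp.finsetSum_apply]
    refine Finset.sum_nonneg fun l _ => ?_
    rw [Finsupp.single_apply]
    split_ifs <;> norm_num
  have hdegdiv : Divisor.degree E.div = g := by
    rw [Config.div, map_sum]
    simp [Divisor.degree_single, deg_eq_one_of_isAlgClosed]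
  obtain ⟨D', ⟨hD', hpos, hr⟩, -⟩ := exists_unique_effective hG hg (E := rD hG E.div)
    (rD_nonneg hG hdivpos) (by rw [degree_rD, hdegdiv]) E.ns (B + E.div)
    (by rw [map_add, hB0, zero_add, sub_self]; exact zero_mem _)
  set T : Finset (Place k Ft) := Finset.univ.image (fun l => rP hG (E.pt l)) with hT
  have hrT : rD hG D' = sumDiv T := by
    rw [hr, Config.div, map_sum, sumDiv, hT, Finset.sum_image (fun a _ b _ h => E.inj h)]
    exact Finset.sum_congr rfl fun l _ => rD_single hG _ _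
  obtain ⟨P, hP, hDP⟩ := exists_points hG hpos hrT
  refine ⟨fun l => P (rP hG (E.pt l)), fun l => hP _ (Finset.mem_image_of_mem _ (Finset.mem_univ l)),
    ?_⟩
  have hD'' : D' = ∑ l, Finsupp.single (P (rP hG (E.pt l))) (1 : ℤ) := by
    rw [hDP, hT, Finset.sum_image (fun a _ b _ h => E.inj h)]
  rw [← hD'']
  have h1 : D' - E.div - B = D' - (B + E.div) := by abel
  refine hB.of_sub_mem_principal ?_ (by rw [h1]; exact hD')
  have h2 : D' - E.div = B + (D' - (B + E.div)) := by abel
  rw [h2]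
  exact add_mem hB.1 (mem_degZero_of_mem_principal hD')

/-- `Geo0.effective_unique` / `Geo0.eq_of_effective`: the two effective divisors `∑ P l`, `∑ P' l` are linearly equivalent and reduce to `rD E.div`, so they are equal;
the points are recovered from the divisor because they lie in distinct discs. -/
theorem IsPts.unique {E : Config hG G g} {u : Pic0 K F} {P P' : Fin g → Place K F}
    (h : IsPts E u P) (h' : IsPts E u P') : P = P' := by
  classical
  have hp : (∑ l, Finsupp.single (P' l) (1 : ℤ)) - (∑ l, Finsupp.single (P l) (1 : ℤ))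
      ∈ Divisor.principal (K := K) (F := F) := by
    have := h.2.sub_mem_principal h'.2
    rwa [sub_sub_sub_cancel_right] at this
  have hnn : ∀ (R : Fin g → Place K F) (v : Place K F),
      0 ≤ (∑ l, Finsupp.single (R l) (1 : ℤ)) v := by
    intro R v
    rw [Finsupp.finsetSum_apply]
    refine Finset.sum_nonneg fun l _ => ?_
    rw [Finsupp.single_apply]
    split_ifs <;> norm_num
  have hr : rD hG (∑ l, Finsupp.single (P l) (1 : ℤ))
      = rD hG (∑ l, Finsupp.single (E.pt l) (1 : ℤ)) := by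
    rw [map_sum, map_sum]
    refine Finset.sum_congr rfl fun l _ => ?_
    rw [rD_single, rD_single, h.1 l]
  have heq := eq_of_effective hG (hnn P) (hnn P') (by rw [hr]; exact E.ns) hp
  funext l
  have h1 : 0 < (∑ l', Finsupp.single (P' l') (1 : ℤ)) (P l) := by
    rw [heq, Finsupp.finsetSum_apply]
    refine Finset.sum_pos' (fun l' _ => ?_) ⟨l, Finset.mem_univ _, ?_⟩
    · rw [Finsupp.single_apply]
      split_ifs <;> norm_num
    · rw [Finsupp.single_eq_same]; norm_num
  rw [Finsupp.finsetSum_apply] at h1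
  obtain ⟨l', -, hl'⟩ := Finset.exists_lt_of_sum_lt (s := Finset.univ) (f := fun _ => (0 : ℤ))
    (g := fun l' => Finsupp.single (P' l') (1 : ℤ) (P l)) (by simpa using h1)
  have h2 : P' l' = P l := by
    by_contra hne
    rw [Finsupp.single_apply, if_neg hne] at hl'
    exact lt_irrefl _ hl'
  have h3 : l' = l := by
    apply E.inj
    change rP hG (E.pt l') = rP hG (E.pt l)
    rw [← h'.1 l', ← h.1 l, h2]
  rw [← h2, h3]

theorem Config.isPts_pts (E : Config hG G g) (hg : IsGenus K F g) {u : Pic0 K F}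
    (hu : u ∈ J1 hG) : IsPts E u (E.pts u) := by
  have h := exists_isPts E hg hu
  rw [Config.pts, dif_pos h]
  exact h.choose_spec

theorem IsPts.pts_eq {E : Config hG G g} {u : Pic0 K F} {P : Fin g → Place K F}
    (h : IsPts E u P) : E.pts u = P := by
  have h' : ∃ P, IsPts E u P := ⟨P, h⟩
  rw [Config.pts, dif_pos h']
  exact h'.choose_spec.unique h

theorem Coord_rD_smul (hI : Iner V y G) {σ : SemilinearAut K F} (hσ : σ ∈ G) (B : Divisor K F) :
    rD hG (σ • B) = rD hG B := by
  induction B using Finsupp.induction_linear with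
  | zero => rw [smul_zero]
  | add f g hf hg => rw [smul_add, map_add, map_add, hf, hg]
  | single v n => rw [SemilinearAut.smul_single, rD_single, rD_single, hI.rP_smul hG hσ]

theorem Coord_smul_div (E : Config hG G g) (hI : Iner V y G) {σ : SemilinearAut K F} (hσ : σ ∈ G) :
    σ • E.div = E.div := by
  rw [Config.div, Finset.smul_sum]
  refine Finset.sum_congr rfl fun l _ => ?_
  rw [SemilinearAut.smul_single, (E.param l).fixP hI σ hσ]

/-- (`Rep.smul`, `Iner.rP_smul`, `IsParam.fixP`: `σ • E.div = E.div`.) -/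
theorem IsPts.smul {E : Config hG G g} {u : Pic0 K F} {P : Fin g → Place K F} (h : IsPts E u P)
    (hI : Iner V y G) {σ : SemilinearAut K F} (hσ : σ ∈ G) : IsPts E (σ • u) (fun l => σ • P l) := by
  refine ⟨fun l => (hI.rP_smul hG hσ (P l)).trans (h.1 l), ?_⟩
  have h2 := h.2.smul σ
  rw [smul_sub, Coord_smul_div E hI hσ, Finset.smul_sum] at h2
  simpa only [SemilinearAut.smul_single] using h2

theorem smul_mem_J1 (hI : Iner V y G) {σ : SemilinearAut K F} (hσ : σ ∈ G) {u : Pic0 K F}
    (hu : u ∈ J1 hG) : σ • u ∈ J1 hG := by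
  obtain ⟨B, hB, h0⟩ := hu
  exact ⟨σ • B, hB.smul σ, by rw [Coord_rD_smul hI hσ, h0]⟩

/-- `rD (σ • B - B) = 0` by `Iner.rP_smul`. -/
theorem smul_sub_mem_J1 (hI : Iner V y G) {σ : SemilinearAut K F} (hσ : σ ∈ G) (u : Pic0 K F) :
    σ • u - u ∈ J1 hG := by
  obtain ⟨B, hB⟩ := exists_rep u
  exact ⟨σ • B - B, (hB.smul σ).sub hB, by rw [map_sub, Coord_rD_smul hI hσ, sub_self]⟩

theorem Config.pts_smul (E : Config hG G g) (hg : IsGenus K F g) (hI : Iner V y G)
    {σ : SemilinearAut K F} (hσ : σ ∈ G) {u : Pic0 K F} (hu : u ∈ J1 hG) (l : Fin g) :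
    E.pts (σ • u) l = σ • E.pts u l :=
  congrFun ((E.isPts_pts hg hu).smul hI hσ).pts_eq l

theorem Config.z_smul (E : Config hG G g) (hg : IsGenus K F g) (hI : Iner V y G)
    {σ : SemilinearAut K F} (hσ : σ ∈ G) {u : Pic0 K F} (hu : u ∈ J1 hG) (l : Fin g) :
    E.z (σ • u) l = SemilinearAut.baseAut σ (E.z u l) := by
  rw [Config.z, Config.z, E.pts_smul hg hI hσ hu, ← val_smul, (E.param l).inv σ hσ]

theorem Config.z_mem (E : Config hG G g) (hg : IsGenus K F g) {u : Pic0 K F} (hu : u ∈ J1 hG)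
    (l : Fin g) : E.z u l ∈ A.nonunits :=
  (E.param l).val_mem ((E.isPts_pts hg hu).1 l)

/-- (`IsParam.eq_of_val_eq` gives `E.pts u = E.pts u'`, then `Rep.unique`.) -/
theorem Config.z_injOn (E : Config hG G g) (hg : IsGenus K F g) {u u' : Pic0 K F}
    (hu : u ∈ J1 hG) (hu' : u' ∈ J1 hG) (h : E.z u = E.z u') : u = u' := by
  have h1 := E.isPts_pts hg hu
  have h2 := E.isPts_pts hg hu'
  have e : E.pts u = E.pts u' := by
    funext l
    exact (E.param l).eq_of_val_eq (h1.1 l) (h2.1 l) (congrFun h l)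
  have h3 := h1.2
  rw [e] at h3
  exact h3.unique h2.2

/-! ### consequences of the residual divisor lemma -/

variable {Γ : Type*} [Group Γ] {α : Γ →* SemilinearAut K F} {ϖ : K}

theorem Coord_rep_of_principal {u : Pic0 K F} {D D' : Divisor K F} (h : Rep u D)
    (h' : D' - D ∈ Divisor.principal (K := K) (F := F)) : Rep u D' := by
  refine h.of_sub_mem_principal ?_ h'
  have h1 := mem_degZero_of_mem_principal h'
  obtain ⟨h2, -⟩ := h
  have := add_mem h1 h2
  rwa [sub_add_cancel] at this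

/-- **(N')** `z^{E'}(-u)` is polynomial in `z^E(u)`.
Frame `ι = κ = Fin g`, `y0 = E.pt`, `z0 = E'.pt`; `Frame.exists_adapted`, `Frame.Adapted.residual` with `Y a w = E.pts (U w) a`.  The `Z l w` satisfy
`IsPts E' (- U w) (Z · w)` (`Rep.neg`, `Rep.of_sub_mem_principal`), so `Z l w = E'.pts (- U w) l` (`IsPts.pts_eq`). -/
theorem Config.isPoly_neg [CharZero K] (hR : RatStr α V ϖ y) (hg : IsGenus K F g)
    (E E' : Config hG α.range g) (hd : E.Disj E')
    {W ι' : Type*} [Finite W] [MulAction α.range W] (T : ι' → W → K)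
    (U : W → Pic0 K F) (hU : ∀ w, U w ∈ J1 hG)
    (hUe : ∀ (σ : α.range) w, U (σ • w) = (σ : SemilinearAut K F) • U w)
    (hT : ∀ l, IsPoly (fixR A (βG α.range)) T (fun w => E.z (U w) l)) (l : Fin g) :
    IsPoly (fixR A (βG α.range)) T (fun w => E'.z (- U w) l) := by
  classical
  have hI := hR.iner
  have hB := hR.base
  let X : Frame hG α.range (Fin g) (Fin g) :=
    { y0 := E.pt, ty := E.t, z0 := E'.pt, tz := E'.t, hy := E.param, hz := E'.param,
      inj := by
        rintro (a | a) (b | b) h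
        · exact congrArg Sum.inl (E.inj h)
        · exact absurd h (hd a b)
        · exact absurd h.symm (hd b a)
        · exact congrArg Sum.inr (E'.inj h) }
  obtain ⟨s, hs⟩ := X.exists_adapted hR hg (Fintype.card_fin g) E'.ns
  obtain ⟨Z, hZd, hZe, hZp, hZT⟩ := hs.residual hI hB T (fun a w => E.pts (U w) a)
    (fun a w => (E.isPts_pts hg (hU w)).1 a)
    (fun a σ w => by rw [hUe]; exact E.pts_smul hg hI σ.2 (hU w) a)
    hT
  have key : ∀ w, IsPts E' (- U w) (fun l => Z l w) := by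
    intro w
    refine ⟨fun l => hZd l w, ?_⟩
    have h2 := (E.isPts_pts hg (hU w)).2.neg
    refine Coord_rep_of_principal h2 ?_
    have h3 := hZp w
    have e : (∑ l, Finsupp.single (Z l w) (1 : ℤ)) - E'.div
        - -((∑ l, Finsupp.single (E.pts (U w) l) (1 : ℤ)) - E.div)
        = (∑ a, Finsupp.single (E.pts (U w) a) (1 : ℤ)) + (∑ l, Finsupp.single (Z l w) (1 : ℤ))
          - X.Y0 - X.Z0 := by
      show _ = (∑ a, Finsupp.single (E.pts (U w) a) (1 : ℤ))
        + (∑ l, Finsupp.single (Z l w) (1 : ℤ)) - E.div - E'.div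
      abel
    rw [e]
    exact h3
  refine (hZT l).congr fun w => ?_
  show val (Z l w) (E'.t l) = E'.z (- U w) l
  rw [Config.z, (key w).pts_eq]

/-- **(S')** `z^{E''}(-(u + u'))` is polynomial in `z^E(u)`, `z^{E'}(u')`.
Frame `ι = Fin g ⊕ Fin g`, `y0 = Sum.elim E.pt E'.pt`, `κ = Fin g`, `z0 = E''.pt`. -/
theorem Config.isPoly_neg_add [CharZero K] (hR : RatStr α V ϖ y) (hg : IsGenus K F g)
    (E E' E'' : Config hG α.range g) (hd : E.Disj E') (hd' : E.Disj E'') (hd'' : E'.Disj E'')
    {W ι' : Type*} [Finite W] [MulAction α.range W] (T : ι' → W → K)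
    (U U' : W → Pic0 K F) (hU : ∀ w, U w ∈ J1 hG) (hU' : ∀ w, U' w ∈ J1 hG)
    (hUe : ∀ (σ : α.range) w, U (σ • w) = (σ : SemilinearAut K F) • U w)
    (hUe' : ∀ (σ : α.range) w, U' (σ • w) = (σ : SemilinearAut K F) • U' w)
    (hT : ∀ l, IsPoly (fixR A (βG α.range)) T (fun w => E.z (U w) l))
    (hT' : ∀ l, IsPoly (fixR A (βG α.range)) T (fun w => E'.z (U' w) l)) (l : Fin g) :
    IsPoly (fixR A (βG α.range)) T (fun w => E''.z (- (U w + U' w)) l) := by
  classical
  have hI := hR.iner
  have hB := hR.base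
  let X : Frame hG α.range (Fin g ⊕ Fin g) (Fin g) :=
    { y0 := Sum.elim E.pt E'.pt, ty := Sum.elim E.t E'.t, z0 := E''.pt, tz := E''.t,
      hy := by
        rintro (a | a)
        · exact E.param a
        · exact E'.param a
      hz := E''.param,
      inj := by
        rintro ((a | a) | a) ((b | b) | b) h
        · exact congrArg (Sum.inl ∘ Sum.inl) (E.inj h)
        · exact absurd h (hd a b)
        · exact absurd h (hd' a b)
        · exact absurd h.symm (hd b a)
        · exact congrArg (Sum.inl ∘ Sum.inr) (E'.inj h)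
        · exact absurd h (hd'' a b)
        · exact absurd h.symm (hd' b a)
        · exact absurd h.symm (hd'' b a)
        · exact congrArg Sum.inr (E''.inj h) }
  obtain ⟨s, hs⟩ := X.exists_adapted hR hg (Fintype.card_fin g) E''.ns
  obtain ⟨Z, hZd, hZe, hZp, hZT⟩ := hs.residual hI hB T
    (fun a w => Sum.elim (fun a => E.pts (U w) a) (fun a => E'.pts (U' w) a) a)
    (by
      rintro (a | a) w
      · exact (E.isPts_pts hg (hU w)).1 a
      · exact (E'.isPts_pts hg (hU' w)).1 a)
    (by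
      rintro (a | a) σ w
      · show E.pts (U (σ • w)) a = _
        rw [hUe]; exact E.pts_smul hg hI σ.2 (hU w) a
      · show E'.pts (U' (σ • w)) a = _
        rw [hUe']; exact E'.pts_smul hg hI σ.2 (hU' w) a)
    (by
      rintro (a | a)
      · exact hT a
      · exact hT' a)
  have key : ∀ w, IsPts E'' (- (U w + U' w)) (fun l => Z l w) := by
    intro w
    refine ⟨fun l => hZd l w, ?_⟩
    have h2 := ((E.isPts_pts hg (hU w)).2.add (E'.isPts_pts hg (hU' w)).2).neg
    refine Coord_rep_of_principal h2 ?_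
    have h3 := hZp w
    rw [Fintype.sum_sum_type] at h3
    have hY0 : X.Y0 = E.div + E'.div := by
      show (∑ a : Fin g ⊕ Fin g, Finsupp.single (Sum.elim E.pt E'.pt a) (1 : ℤ)) = _
      rw [Fintype.sum_sum_type]; rfl
    rw [hY0] at h3
    have e : (∑ l, Finsupp.single (Z l w) (1 : ℤ)) - E''.div
        - -((∑ l, Finsupp.single (E.pts (U w) l) (1 : ℤ)) - E.div
          + ((∑ l, Finsupp.single (E'.pts (U' w) l) (1 : ℤ)) - E'.div))
        = (∑ a, Finsupp.single (E.pts (U w) a) (1 : ℤ))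
          + (∑ a, Finsupp.single (E'.pts (U' w) a) (1 : ℤ))
          + (∑ l, Finsupp.single (Z l w) (1 : ℤ)) - (E.div + E'.div) - X.Z0 := by
      show _ = (∑ a, Finsupp.single (E.pts (U w) a) (1 : ℤ))
          + (∑ a, Finsupp.single (E'.pts (U' w) a) (1 : ℤ))
          + (∑ l, Finsupp.single (Z l w) (1 : ℤ)) - (E.div + E'.div) - E''.div
      abel
    rw [e]
    exact h3
  refine (hZT l).congr fun w => ?_
  show val (Z l w) (E''.t l) = E''.z (- (U w + U' w)) l
  rw [Config.z, (key w).pts_eq]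

/-- **Configurations exist**, avoiding a given finite set of places of the special fibre.
(`Geo0.exists_nonspecial_finset` on `Ft` (genus `g` by `genus_eq`), enumerate `T` by `Fin g`; `Geo0.exists_fix_place`; `Geo0.exists_param_fix_at` with `S = {Q}`;
`inv_range_iff`; `Van` from `val = 0` and regularity.) -/
theorem exists_config (hG : Good V y yt) (hR : RatStr α V ϖ y) (hg : IsGenus K F g)
    (S : Set (Place k Ft)) (hS : S.Finite) :
    ∃ E : Config hG α.range g, ∀ l, rP hG (E.pt l) ∉ S := by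
  classical
  obtain ⟨gt, hgt⟩ := exists_isGenus (Ω := k) (𝕃 := Ft)
  have hgg : g = gt := genus_eq hG hg hgt
  subst hgg
  obtain ⟨T, hTcard, hTS, hT1⟩ := exists_nonspecial_finset hgt S hS
  let e : Fin g ≃ T := (T.equivFinOfCardEq hTcard).symm
  choose pt hptfix hpt using fun l : Fin g => exists_fix_place hG hR (e l : Place k Ft)
  have hparam : ∀ l, ∃ t, IsParam hG α.range t (pt l) := by
    intro l
    obtain ⟨t, tt, htfix, htred, htreg, hval, hord, -⟩ :=
      exists_param_fix_at hG hR {rP hG (pt l)} (hptfix l) (Finset.mem_singleton_self _)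
    refine ⟨t, inv_range_iff.2 htfix, ⟨tt, htred, hord⟩,
      fun v hv => htreg v (by rw [hv]; exact Finset.mem_singleton_self _), ?_⟩
    exact (val_eq_zero_iff _ (htreg _ (Finset.mem_singleton_self _))).mp hval
  choose t ht using hparam
  refine ⟨⟨pt, t, ht, ?_, ?_⟩, fun l => ?_⟩
  · intro l l' h
    simp only [hpt] at h
    exact e.injective (Subtype.ext h)
  · have h1 : rD hG (∑ l, Finsupp.single (pt l) (1 : ℤ)) = sumDiv T := by
      rw [map_sum]
      simp only [rD_single, hpt]
      unfold sumDiv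
      rw [← Finset.sum_coe_sort T (fun v => Finsupp.single v (1 : ℤ))]
      exact Equiv.sum_comp e (fun v : T => Finsupp.single (v : Place k Ft) (1 : ℤ))
    rw [h1, hT1]
  · show rP hG (pt l) ∉ S
    rw [hpt]
    exact hTS _ (e l).2

/-- four pairwise disjoint configurations. -/
theorem exists_four_config (hG : Good V y yt) (hR : RatStr α V ϖ y) (hg : IsGenus K F g) :
    ∃ E E₁ E' E'' : Config hG α.range g, E.Disj E₁ ∧ E₁.Disj E' ∧ E.Disj E' ∧ E.Disj E'' ∧
      E'.Disj E'' := by
  obtain ⟨E, -⟩ := exists_config hG hR hg ∅ Set.finite_empty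
  obtain ⟨E₁, h₁⟩ := exists_config hG hR hg (Set.range fun l => rP hG (E.pt l))
    (Set.finite_range _)
  obtain ⟨E', h'⟩ := exists_config hG hR hg
    ((Set.range fun l => rP hG (E.pt l)) ∪ Set.range fun l => rP hG (E₁.pt l))
    ((Set.finite_range _).union (Set.finite_range _))
  obtain ⟨E'', h''⟩ := exists_config hG hR hg
    ((Set.range fun l => rP hG (E.pt l)) ∪ Set.range fun l => rP hG (E'.pt l))
    ((Set.finite_range _).union (Set.finite_range _))
  exact ⟨E, E₁, E', E'', fun l l' h => h₁ l' ⟨l, h⟩, fun l l' h => h' l' (Or.inr ⟨l, h⟩),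
    fun l l' h => h' l' (Or.inl ⟨l, h⟩), fun l l' h => h'' l' (Or.inl ⟨l, h⟩),
    fun l l' h => h'' l' (Or.inr ⟨l, h⟩)⟩

/-- **The addition theorem** in `E`-coordinates:
`z^{E₁}(-u')` (N'), `z^{E'}(u')` (N'), `z^{E''}(-(u+u'))` (S'), `z^E(u+u')` (N'). -/
theorem Config.isPoly_add [CharZero K] (hR : RatStr α V ϖ y) (hg : IsGenus K F g)
    (E E₁ E' E'' : Config hG α.range g) (h1 : E.Disj E₁) (h2 : E₁.Disj E') (h3 : E.Disj E')
    (h4 : E.Disj E'') (h5 : E'.Disj E'')
    {W ι' : Type*} [Finite W] [MulAction α.range W] (T : ι' → W → K)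
    (U U' : W → Pic0 K F) (hU : ∀ w, U w ∈ J1 hG) (hU' : ∀ w, U' w ∈ J1 hG)
    (hUe : ∀ (σ : α.range) w, U (σ • w) = (σ : SemilinearAut K F) • U w)
    (hUe' : ∀ (σ : α.range) w, U' (σ • w) = (σ : SemilinearAut K F) • U' w)
    (hT : ∀ l, IsPoly (fixR A (βG α.range)) T (fun w => E.z (U w) l))
    (hT' : ∀ l, IsPoly (fixR A (βG α.range)) T (fun w => E.z (U' w) l)) (l : Fin g) :
    IsPoly (fixR A (βG α.range)) T (fun w => E.z (U w + U' w) l) := by
  have a1 := fun l => E.isPoly_neg hR hg E₁ h1 T U' hU' hUe' hT' l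
  have hn : ∀ w, - U' w ∈ J1 hG := fun w => neg_mem (hU' w)
  have hne : ∀ (σ : α.range) w, - U' (σ • w) = (σ : SemilinearAut K F) • (- U' w) := fun σ w => by
    rw [hUe', smul_neg]
  have a2 := fun l => E₁.isPoly_neg hR hg E' h2 T (fun w => - U' w) hn hne a1 l
  simp only [neg_neg] at a2
  have a3 := fun l => E.isPoly_neg_add hR hg E' E'' h3 h4 h5 T U U' hU hU' hUe hUe' hT a2 l
  have hs : ∀ w, - (U w + U' w) ∈ J1 hG := fun w => neg_mem (add_mem (hU w) (hU' w))
  have hse : ∀ (σ : α.range) w,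
      - (U (σ • w) + U' (σ • w)) = (σ : SemilinearAut K F) • (- (U w + U' w)) := fun σ w => by
    rw [hUe, hUe', smul_neg, smul_add]
  have a4 := E''.isPoly_neg hR hg E h4.symm T (fun w => - (U w + U' w)) hs hse a3 l
  simpa only [neg_neg] using a4

/-- every class is congruent modulo `J1` to a fixed class (`Geo0.exists_fix_divisor` for `E = rD B`; `fixD_of_support`; `degree_rD`). -/
theorem exists_fixed_sub_mem_J1 (hG : Good V y yt) (hR : RatStr α V ϖ y) (u : Pic0 K F) :
    ∃ b : Pic0 K F, (∀ σ ∈ α.range, σ • b = b) ∧ u - b ∈ J1 hG := by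
  obtain ⟨B, hB⟩ := exists_rep u
  obtain ⟨D, hDfix, hDr, -⟩ := exists_fix_divisor hG hR (rD hG B)
  have hdeg : D ∈ Divisor.degZero (K := K) (F := F) := by
    obtain ⟨hB0, -⟩ := hB
    rw [Divisor.mem_degZero] at hB0 ⊢
    rw [← degree_rD hG D, hDr, degree_rD hG B, hB0]
  have hb : Rep (Pic0.mk ⟨D, hdeg⟩) D := ⟨hdeg, rfl⟩
  refine ⟨Pic0.mk ⟨D, hdeg⟩, ?_, B - D, hB.sub hb, by rw [map_sub, hDr, sub_self]⟩
  rintro _ ⟨τ, rfl⟩
  have h1 := hb.smul (α τ)
  rw [fixD_of_support hDfix τ] at h1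
  exact h1.unique hb

end Fermat.Agent.S19.RL

namespace Fermat.Agent.S19.RL

open AlgebraicCurve Fermat.Agent.S26 Fermat.Agent.S37.Red Fermat.Agent.S19.Geo0

variable {K k : Type} [Field K] [Field k] {A : ValuationSubring K} {π : A →+* k}
variable {F Ft : Type} [Field F] [Field Ft] [Algebra K F] [Algebra k Ft]
variable [IsAlgClosed K] [FF1 K F] [IsAlgClosed k] [FF1 k Ft]
variable {V : VFF A π F Ft} {y : F} {yt : Ft}
variable {Γ : Type} [Group Γ] {α : Γ →* SemilinearAut K F} {ϖ : K}

/-- **The output of RL** = the input (L1) of `S19/Loc`. -/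
theorem exists_coord [CharZero K] (hG : Good V y yt) (hR : RatStr α V ϖ y) :
    ∃ (g : ℕ) (z : Pic0 K F → Fin g → K), Loc.Coord A (βG α.range) (J1 hG) z := by
  obtain ⟨g, hg⟩ := exists_isGenus (Ω := K) (𝕃 := F)
  obtain ⟨E, E₁, E', E'', h1, h2, h3, h4, h5⟩ := exists_four_config hG hR hg
  have hI := hR.iner
  refine ⟨g, E.z, ?_, ?_, ?_, ?_, ?_, ?_⟩
  · exact fun σ u => smul_sub_mem_J1 hI σ.2 u
  · intro u
    obtain ⟨b, hb, hub⟩ := exists_fixed_sub_mem_J1 hG hR u
    exact ⟨b, fun σ => hb σ σ.2, hub⟩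
  · exact fun σ u hu l => E.z_smul hg hI σ.2 hu l
  · exact fun u hu l => E.z_mem hg hu l
  · exact fun u hu u' hu' h => E.z_injOn hg hu hu' h
  · intro W _ _ κ _ T _ _ _ U U' hU hU' hUe hUe' hT hT' l
    exact E.isPoly_add hR hg E₁ E' E'' h1 h2 h3 h4 h5 T U U' hU hU' hUe hUe' hT hT' l

end Fermat.Agent.S19.RL
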