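import Mathlib

/-!
# S19 / RL / Poly : polynomial functions on finite equivariant sets  (pure algebra, Mathlib only)

Setting.  `K` a field (`= Qbar`), `A` a valuation subring, `Γ` a group (`=` inertia) acting on `K` through
`β : Γ →* RingAut K`, `R = fixR A β = A ∩ K^Γ` (a DVR with uniformiser `ϖ`, see `Base`).
`W` a finite `Γ`-set, `T : ι → W → K` a family of equivariant functions.

* `Equi β φ`      : `φ (σ • w) = β σ (φ w)`;
* `IsPoly R T φ`  : `φ = p(T)` on `W` for some polynomial `p` with coefficients in `R`.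

Main results (all elementary):
* `exists_conductor` (P1): if `T` separates the points of `W` then `ϖ ^ c * φ` is polynomial for EVERY equivariant
  `A`-valued `φ` (Lagrange interpolation + invariance of the coefficients);
* `isPoly_of_approx` (P2): polynomial functions are `ϖ`-adically closed among the equivariant `A`-valued ones;
* `IsPoly.inv` (P3): inverse of a pointwise unit;
* `isPoly_of_implicit` (P4): implicit function / Hensel iteration.
-/

set_option autoImplicit false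

namespace Fermat.Agent.S19.RL

open MvPolynomial

variable {K : Type*} [Field K]

/-- `A ∩ K^Γ`. -/
def fixR (A : ValuationSubring K) {Γ : Type*} [Group Γ] (β : Γ →* RingAut K) : Subring K where
  carrier := {a | a ∈ A ∧ ∀ σ, β σ a = a}
  mul_mem' := fun {a b} ha hb => ⟨A.mul_mem _ _ ha.1 hb.1, fun σ => by rw [map_mul, ha.2, hb.2]⟩
  one_mem' := ⟨A.one_mem, fun σ => map_one _⟩
  add_mem' := fun {a b} ha hb => ⟨A.add_mem _ _ ha.1 hb.1, fun σ => by rw [map_add, ha.2, hb.2]⟩
  zero_mem' := ⟨A.zero_mem, fun σ => map_zero _⟩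
  neg_mem' := fun {a} ha => ⟨A.neg_mem _ ha.1, fun σ => by rw [map_neg, ha.2]⟩

theorem mem_fixR {A : ValuationSubring K} {Γ : Type*} [Group Γ] {β : Γ →* RingAut K} {a : K} :
    a ∈ fixR A β ↔ a ∈ A ∧ ∀ σ, β σ a = a := Iff.rfl

/-- The hypotheses on `(K, A, Γ, ϖ)`: `Γ` preserves `A`; `A ∩ K^Γ` is a DVR with uniformiser `ϖ`;
the valuation of `A` has rank one. -/
structure Base (A : ValuationSubring K) {Γ : Type*} [Group Γ] (β : Γ →* RingAut K) (ϖ : K) : Prop where
  stable : ∀ σ a, a ∈ A → β σ a ∈ A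
  unif_mem : ϖ ∈ fixR A β
  unif_nonunit : ϖ ∈ A.nonunits
  unif_ne : ϖ ≠ 0
  dvd_pow : ∀ d ∈ fixR A β, d ≠ 0 → ∃ c : ℕ, ∃ d' ∈ fixR A β, d * d' = ϖ ^ c
  nilp : ∀ a ∈ A.nonunits, ∃ N : ℕ, ∃ b ∈ A, a ^ N = ϖ * b

section

variable {Γ : Type*} [Group Γ] (β : Γ →* RingAut K)

/-- equivariant functions. -/
def Equi {W : Type*} [MulAction Γ W] (φ : W → K) : Prop := ∀ (σ : Γ) (w : W), φ (σ • w) = β σ (φ w)

end

/-- `φ` is a polynomial in the functions `T a` with coefficients in `R`. -/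
def IsPoly (R : Subring K) {ι W : Type*} (T : ι → W → K) (φ : W → K) : Prop :=
  ∃ p : MvPolynomial ι R, ∀ w, φ w = aeval (fun a => T a w) p

/-! ### (P0) closure properties -/

section P0

variable {R : Subring K} {ι W : Type*} {T : ι → W → K}

theorem isPoly_const {c : K} (hc : c ∈ R) : IsPoly R T (fun _ => c) := by
  refine ⟨C ⟨c, hc⟩, fun w => ?_⟩
  rw [aeval_C]
  rfl

theorem isPoly_coord (a : ι) : IsPoly R T (T a) := by
  exact ⟨X a, fun w => by rw [aeval_X]⟩

theorem IsPoly.add {φ ψ : W → K} (hφ : IsPoly R T φ) (hψ : IsPoly R T ψ) :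
    IsPoly R T (fun w => φ w + ψ w) := by
  obtain ⟨p, hp⟩ := hφ
  obtain ⟨q, hq⟩ := hψ
  exact ⟨p + q, fun w => by rw [map_add, ← hp, ← hq]⟩

theorem IsPoly.neg {φ : W → K} (hφ : IsPoly R T φ) : IsPoly R T (fun w => - φ w) := by
  obtain ⟨p, hp⟩ := hφ
  exact ⟨-p, fun w => by rw [map_neg, ← hp]⟩

theorem IsPoly.sub {φ ψ : W → K} (hφ : IsPoly R T φ) (hψ : IsPoly R T ψ) :
    IsPoly R T (fun w => φ w - ψ w) := by
  obtain ⟨p, hp⟩ := hφ
  obtain ⟨q, hq⟩ := hψ
  exact ⟨p - q, fun w => by rw [map_sub, ← hp, ← hq]⟩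

theorem IsPoly.mul {φ ψ : W → K} (hφ : IsPoly R T φ) (hψ : IsPoly R T ψ) :
    IsPoly R T (fun w => φ w * ψ w) := by
  obtain ⟨p, hp⟩ := hφ
  obtain ⟨q, hq⟩ := hψ
  exact ⟨p * q, fun w => by rw [map_mul, ← hp, ← hq]⟩

theorem IsPoly.pow {φ : W → K} (hφ : IsPoly R T φ) (n : ℕ) : IsPoly R T (fun w => φ w ^ n) := by
  obtain ⟨p, hp⟩ := hφ
  exact ⟨p ^ n, fun w => by rw [map_pow, ← hp]⟩

theorem isPoly_sum {J : Type*} (s : Finset J) (φ : J → W → K) (h : ∀ j ∈ s, IsPoly R T (φ j)) :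
    IsPoly R T (fun w => ∑ j ∈ s, φ j w) := by
  classical
  induction s using Finset.induction_on with
  | empty =>
    simp only [Finset.sum_empty]
    exact isPoly_const R.zero_mem
  | insert a s ha ih =>
    simp only [Finset.sum_insert ha]
    exact (h a (Finset.mem_insert_self a s)).add (ih fun j hj => h j (Finset.mem_insert_of_mem hj))

theorem isPoly_prod {J : Type*} (s : Finset J) (φ : J → W → K) (h : ∀ j ∈ s, IsPoly R T (φ j)) :
    IsPoly R T (fun w => ∏ j ∈ s, φ j w) := by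
  classical
  induction s using Finset.induction_on with
  | empty =>
    simp only [Finset.prod_empty]
    exact isPoly_const R.one_mem
  | insert a s ha ih =>
    simp only [Finset.prod_insert ha]
    exact (h a (Finset.mem_insert_self a s)).mul (ih fun j hj => h j (Finset.mem_insert_of_mem hj))

theorem IsPoly.congr {φ ψ : W → K} (hφ : IsPoly R T φ) (h : ∀ w, φ w = ψ w) : IsPoly R T ψ := by
  obtain ⟨p, hp⟩ := hφ
  exact ⟨p, fun w => by rw [← h w, hp]⟩

/-- substitution. -/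
theorem IsPoly.comp {ι' : Type*} {τ : ι' → W → K} {φ : W → K} (hφ : IsPoly R τ φ)
    (hτ : ∀ l, IsPoly R T (τ l)) : IsPoly R T φ := by
  obtain ⟨p, hp⟩ := hφ
  choose q hq using hτ
  refine ⟨bind₁ q p, fun w => ?_⟩
  rw [aeval_bind₁, hp]
  congr 2
  funext l
  exact hq l w

/-- pull back along a map of the parameter sets. -/
theorem IsPoly.comp_right {W' : Type*} {φ : W → K} (hφ : IsPoly R T φ) (f : W' → W) :
    IsPoly R (fun a w' => T a (f w')) (fun w' => φ (f w')) := by
  obtain ⟨p, hp⟩ := hφ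
  exact ⟨p, fun w' => hp (f w')⟩

theorem isPoly_det {n : Type*} [Fintype n] [DecidableEq n] (M : W → Matrix n n K)
    (h : ∀ i j, IsPoly R T (fun w => M w i j)) : IsPoly R T (fun w => (M w).det) := by
  refine IsPoly.congr (isPoly_sum Finset.univ
    (fun (σ : Equiv.Perm n) w => ((Equiv.Perm.sign σ : ℤ) : K) * ∏ i, M w (σ i) i)
    (fun σ _ => ?_)) (fun w => (Matrix.det_apply' _).symm)
  exact (isPoly_const (intCast_mem _ _)).mul
    (isPoly_prod Finset.univ (fun i w => M w (σ i) i) (fun i _ => h (σ i) i))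

theorem isPoly_adjugate {n : Type*} [Fintype n] [DecidableEq n] (M : W → Matrix n n K)
    (h : ∀ i j, IsPoly R T (fun w => M w i j)) (i j : n) :
    IsPoly R T (fun w => (M w).adjugate i j) := by
  refine IsPoly.congr (isPoly_det (fun w => (M w).updateRow j (Pi.single i 1))
    (fun i' j' => ?_)) (fun w => (Matrix.adjugate_apply _ _ _).symm)
  by_cases hi : i' = j
  · refine IsPoly.congr (isPoly_const (c := (Pi.single i 1 : n → K) j') ?_)
      (fun w => by rw [Matrix.updateRow_apply, if_pos hi])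
    rw [Pi.single_apply]
    split_ifs
    · exact R.one_mem
    · exact R.zero_mem
  · exact IsPoly.congr (h i' j') (fun w => by rw [Matrix.updateRow_apply, if_neg hi])

end P0

section Main

variable {A : ValuationSubring K} {Γ : Type*} [Group Γ] {β : Γ →* RingAut K} {ϖ : K}
variable {ι W : Type*} [MulAction Γ W] {T : ι → W → K}

theorem IsPoly.equi {φ : W → K} (hφ : IsPoly (fixR A β) T φ) (hTe : ∀ a, Equi β (T a)) : Equi β φ := by
  obtain ⟨p, hp⟩ := hφ
  intro σ w
  rw [hp, hp, MvPolynomial.aeval_def, MvPolynomial.aeval_def]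
  have h1 := MvPolynomial.eval₂_comp_left (β σ : K →+* K) (algebraMap (fixR A β) K)
    (fun a => T a w) p
  have h2 : (β σ : K →+* K).comp (algebraMap (fixR A β) K) = algebraMap (fixR A β) K := by
    ext x
    exact x.2.2 σ
  rw [h2] at h1
  refine Eq.trans ?_ h1.symm
  congr 1
  funext a
  exact hTe a σ w

theorem IsPoly.mem {φ : W → K} (hφ : IsPoly (fixR A β) T φ) (hTA : ∀ a w, T a w ∈ A) (w : W) :
    φ w ∈ A := by
  obtain ⟨p, hp⟩ := hφ
  rw [hp]
  clear hp
  induction p using MvPolynomial.induction_on with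
  | C a =>
    rw [MvPolynomial.aeval_C]
    exact a.2.1
  | add p q hp hq =>
    rw [map_add]
    exact A.add_mem _ _ hp hq
  | mul_X p i hp =>
    rw [map_mul, MvPolynomial.aeval_X]
    exact A.mul_mem _ _ hp (hTA i w)

theorem Poly_nonunits_add {a b : K} (ha : a ∈ A.nonunits) (hb : b ∈ A.nonunits) :
    a + b ∈ A.nonunits := by
  rw [ValuationSubring.mem_nonunits_iff] at ha hb ⊢
  exact Valuation.map_add_lt _ ha hb

theorem Poly_nonunits_mul {a b : K} (ha : a ∈ A) (hb : b ∈ A.nonunits) :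
    a * b ∈ A.nonunits := by
  rw [ValuationSubring.mem_nonunits_iff] at hb ⊢
  rw [← ValuationSubring.valuation_le_one_iff] at ha
  rw [map_mul]
  exact lt_of_le_of_lt (mul_le_of_le_one_left' ha) hb

theorem Poly_nonunits_zero : (0 : K) ∈ A.nonunits := by
  rw [ValuationSubring.mem_nonunits_iff, map_zero]
  exact zero_lt_one

theorem Poly_nonunits_mem {a : K} (ha : a ∈ A.nonunits) : a ∈ A :=
  ValuationSubring.nonunits_subset ha

theorem Poly_unit_inv_mem {a : K} (ha : a ∈ A) (hu : a ∉ A.nonunits) : a⁻¹ ∈ A := by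
  rw [ValuationSubring.mem_nonunits_iff, not_lt] at hu
  rw [← ValuationSubring.valuation_le_one_iff] at ha ⊢
  have h1 : A.valuation a = 1 := le_antisymm ha hu
  rw [map_inv₀, h1, inv_one]

/-- a polynomial function is constant modulo `m_A` if all `T a w ∈ m_A`. -/
theorem IsPoly.exists_const {φ : W → K} (hφ : IsPoly (fixR A β) T φ)
    (hTm : ∀ a w, T a w ∈ A.nonunits) :
    ∃ c ∈ fixR A β, ∀ w, φ w - c ∈ A.nonunits := by
  obtain ⟨p, hp⟩ := hφ
  refine ⟨(MvPolynomial.constantCoeff p : fixR A β), (MvPolynomial.constantCoeff p).2, fun w => ?_⟩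
  rw [hp]
  clear hp
  induction p using MvPolynomial.induction_on with
  | C a =>
    rw [MvPolynomial.aeval_C, MvPolynomial.constantCoeff_C]
    have h0 : algebraMap (fixR A β) K a - (a : K) = 0 := sub_self _
    rw [h0]
    exact Poly_nonunits_zero
  | add p q hp hq =>
    rw [map_add, map_add]
    have h0 : (aeval fun a => T a w) p + (aeval fun a => T a w) q -
        ((MvPolynomial.constantCoeff p + MvPolynomial.constantCoeff q : fixR A β) : K) =
        ((aeval fun a => T a w) p - (MvPolynomial.constantCoeff p : fixR A β)) +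
        ((aeval fun a => T a w) q - (MvPolynomial.constantCoeff q : fixR A β)) := by
      push_cast
      ring
    rw [h0]
    exact Poly_nonunits_add hp hq
  | mul_X p i _ =>
    rw [map_mul, map_mul, MvPolynomial.aeval_X, MvPolynomial.constantCoeff_X, mul_zero]
    have h0 : (((0 : fixR A β)) : K) = 0 := rfl
    rw [h0, sub_zero]
    exact Poly_nonunits_mul
      (IsPoly.mem (A := A) (β := β) (T := T) (φ := fun w => (aeval fun a => T a w) p)
        ⟨p, fun _ => rfl⟩ (fun a w => Poly_nonunits_mem (hTm a w)) w) (hTm i w)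

/-- powers of finitely many elements of `m_A` tend to `0` uniformly. -/
theorem Base.exists_pow_eq (hB : Base A β ϖ) [Finite W] (τ : W → K) (hτ : ∀ w, τ w ∈ A.nonunits)
    (M : ℕ) : ∃ N : ℕ, ∀ n, N ≤ n → ∀ w, ∃ b ∈ A, τ w ^ n = ϖ ^ M * b := by
  classical
  cases nonempty_fintype W
  choose N b hb hN using fun w => hB.nilp (τ w) (hτ w)
  refine ⟨(∑ w, N w) * M, fun n hn w => ?_⟩
  have h1 : N w * M ≤ n :=
    le_trans (Nat.mul_le_mul_right M (Finset.single_le_sum (f := N) (fun _ _ => Nat.zero_le _)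
      (Finset.mem_univ w))) hn
  refine ⟨b w ^ M * τ w ^ (n - N w * M),
    A.mul_mem _ _ (pow_mem (hb w) _) (pow_mem (Poly_nonunits_mem (hτ w)) _), ?_⟩
  calc τ w ^ n = τ w ^ (N w * M + (n - N w * M)) := by rw [Nat.add_sub_cancel' h1]
    _ = (τ w ^ N w) ^ M * τ w ^ (n - N w * M) := by rw [pow_add, pow_mul]
    _ = ϖ ^ M * (b w ^ M * τ w ^ (n - N w * M)) := by rw [hN, mul_pow, mul_assoc]

/-- (P1a) a polynomial function separating the points (`h = ∑ n ^ a T_a`, `n : ℕ` generic). -/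
theorem exists_injective_isPoly [CharZero K] [Finite W] [Finite ι]
    (hsep : ∀ w w', (∀ a, T a w = T a w') → w = w') :
    ∃ h : W → K, IsPoly (fixR A β) T h ∧ Function.Injective h := by
  classical
  cases nonempty_fintype W
  cases nonempty_fintype ι
  let e : ι ≃ Fin (Fintype.card ι) := Fintype.equivFin ι
  let P : W × W → Polynomial K :=
    fun x => ∑ a, Polynomial.C (T a x.1 - T a x.2) * Polynomial.X ^ (e a : ℕ)
  have hP : ∀ x : W × W, x.1 ≠ x.2 → P x ≠ 0 := by
    intro x hx h0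
    apply hx
    apply hsep
    intro a
    have h1 := congrArg (fun p => Polynomial.coeff p (e a : ℕ)) h0
    simp only [P, Polynomial.finsetSum_coeff, Polynomial.coeff_C_mul, Polynomial.coeff_X_pow,
      Polynomial.coeff_zero] at h1
    rw [Finset.sum_eq_single a] at h1
    · simpa [sub_eq_zero] using h1
    · intro b _ hb
      rw [if_neg, mul_zero]
      intro h
      exact hb (e.injective (Fin.ext h.symm))
    · simp
  let Q : Polynomial K := ∏ x ∈ Finset.univ.filter (fun x : W × W => x.1 ≠ x.2), P x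
  have hQ : Q ≠ 0 := Finset.prod_ne_zero_iff.mpr (fun x hx => hP x (Finset.mem_filter.mp hx).2)
  obtain ⟨n, hn⟩ : ∃ n : ℕ, Q.eval (n : K) ≠ 0 := by
    by_contra hcon
    push Not at hcon
    apply hQ
    apply Polynomial.eq_zero_of_infinite_isRoot
    apply Set.Infinite.mono (s := Set.range (Nat.cast : ℕ → K))
    · rintro _ ⟨n, rfl⟩
      exact hcon n
    · exact Set.infinite_range_of_injective Nat.cast_injective
  refine ⟨fun w => ∑ a, (n : K) ^ (e a : ℕ) * T a w, ?_, ?_⟩
  · exact isPoly_sum _ _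
      (fun a _ => (isPoly_const (pow_mem (natCast_mem _ n) _)).mul (isPoly_coord a))
  · intro w w' hww
    by_contra hne
    apply hn
    rw [Polynomial.eval_prod]
    apply Finset.prod_eq_zero (i := (w, w')) (by simp [hne])
    simp only [P, Polynomial.eval_finsetSum, Polynomial.eval_mul, Polynomial.eval_C,
      Polynomial.eval_pow, Polynomial.eval_X]
    have h2 : ∑ a, (T a w - T a w') * (n : K) ^ (e a : ℕ) =
        (∑ a, (n : K) ^ (e a : ℕ) * T a w) - ∑ a, (n : K) ^ (e a : ℕ) * T a w' := by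
      rw [← Finset.sum_sub_distrib]
      exact Finset.sum_congr rfl (fun a _ => by ring)
    rw [h2, sub_eq_zero]
    exact hww

theorem Poly_prod_ite_smul {Γ' W' M : Type*} [Group Γ'] [MulAction Γ' W'] [Fintype W']
    [DecidableEq W'] [CommMonoid M] (σ : Γ') (w : W') (g : W' → M) :
    ∏ u, (if u = w then 1 else g (σ • u)) = ∏ u, (if u = σ • w then 1 else g u) := by
  rw [← Equiv.prod_comp (MulAction.toPerm σ) (fun u => if u = σ • w then 1 else g u)]
  refine Finset.prod_congr rfl (fun u _ => ?_)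
  simp only [MulAction.toPerm_apply, smul_left_cancel_iff]

theorem Poly_prod_split {W' M : Type*} [Fintype W'] [DecidableEq W'] [CommMonoid M] (w : W')
    (g : W' → M) : ∏ u, g u = g w * ∏ u, (if u = w then 1 else g u) := by
  have h1 : ∀ u, g u = (if u = w then g u else 1) * (if u = w then 1 else g u) := by
    intro u
    split_ifs <;> simp
  calc ∏ u, g u = ∏ u, ((if u = w then g u else 1) * (if u = w then 1 else g u)) :=
        Finset.prod_congr rfl (fun u _ => h1 u)
    _ = _ := by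
        rw [Finset.prod_mul_distrib, Finset.prod_ite_eq' Finset.univ w g,
          if_pos (Finset.mem_univ w)]

/-- (P1b) Lagrange interpolation.  `d = ∏_{w ≠ w'} (h w - h w')`,
`d φ = Q(h)`, `Q = ∑_w φ(w) (d / ∏_{w' ≠ w} (h w - h w')) ∏_{w' ≠ w} (X - h w')`; `β σ` permutes the summands,
so `Q` has coefficients in `A ∩ K^Γ`. -/
theorem exists_conductor_of_injective (hB : Base A β ϖ) [Finite W] (h : W → K) (he : Equi β h)
    (hA : ∀ w, h w ∈ A) (hinj : Function.Injective h) :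
    ∃ d ∈ fixR A β, d ≠ 0 ∧ ∀ φ : W → K, Equi β φ → (∀ w, φ w ∈ A) →
      ∃ q : Polynomial (fixR A β), ∀ w, d * φ w = Polynomial.aeval (h w) q := by
  classical
  cases nonempty_fintype W
  let G : W → K := fun u => ∏ w', if w' = u then 1 else (h u - h w')
  let c : W → K := fun w => ∏ u, if u = w then 1 else G u
  let F : W → Polynomial K :=
    fun w => ∏ w', if w' = w then 1 else (Polynomial.X - Polynomial.C (h w'))
  have hGA : ∀ u, G u ∈ A := fun u => prod_mem (fun w' _ => by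
    split_ifs
    · exact A.one_mem
    · exact A.sub_mem (hA u) (hA w'))
  have hcA : ∀ w, c w ∈ A := fun w => prod_mem (fun u _ => by
    split_ifs
    · exact A.one_mem
    · exact hGA u)
  have hGσ : ∀ σ u, β σ (G u) = G (σ • u) := by
    intro σ u
    simp only [G]
    rw [map_prod, ← Poly_prod_ite_smul σ u (fun w' => h (σ • u) - h w')]
    refine Finset.prod_congr rfl (fun w' _ => ?_)
    rw [apply_ite (β σ), map_one, map_sub, he, he]
  have hcσ : ∀ σ w, β σ (c w) = c (σ • w) := by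
    intro σ w
    simp only [c]
    rw [map_prod, ← Poly_prod_ite_smul σ w G]
    refine Finset.prod_congr rfl (fun u _ => ?_)
    rw [apply_ite (β σ), map_one, hGσ]
  have hFσ : ∀ σ w, (F w).map (β σ : K →+* K) = F (σ • w) := by
    intro σ w
    simp only [F]
    rw [Polynomial.map_prod,
      ← Poly_prod_ite_smul σ w (fun w' => Polynomial.X - Polynomial.C (h w'))]
    refine Finset.prod_congr rfl (fun u _ => ?_)
    rw [apply_ite (Polynomial.map (β σ : K →+* K)), Polynomial.map_one, Polynomial.map_sub,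
      Polynomial.map_X, Polynomial.map_C, he]
    rfl
  have hG0 : ∀ u, G u ≠ 0 := by
    intro u
    refine Finset.prod_ne_zero_iff.mpr (fun w' _ => ?_)
    split_ifs with hw
    · exact one_ne_zero
    · exact sub_ne_zero.mpr (fun hh => hw (hinj hh).symm)
  have hd : ∀ w, ∏ u, G u = G w * c w := fun w => Poly_prod_split w G
  have hFA : ∀ w, F w ∈ Polynomial.liftsRing A.toSubring.subtype := by
    intro w
    refine Subring.prod_mem _ (fun w' _ => ?_)
    split_ifs
    · exact Subring.one_mem _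
    · refine Subring.sub_mem _ ?_ ?_
      · exact (Polynomial.lifts_iff_liftsRing _ _).mp (Polynomial.X_mem_lifts _)
      · exact (Polynomial.lifts_iff_liftsRing _ _).mp
          (Polynomial.C_mem_lifts A.toSubring.subtype ⟨h w', hA w'⟩)
  have hFeval : ∀ v w, (F w).eval (h v) = if w = v then G v else 0 := by
    intro v w
    simp only [F]
    rw [Polynomial.eval_prod]
    split_ifs with hwv
    · subst hwv
      refine Finset.prod_congr rfl (fun w' _ => ?_)
      split_ifs <;> simp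
    · refine Finset.prod_eq_zero (Finset.mem_univ v) ?_
      rw [if_neg (fun hh => hwv hh.symm)]
      simp
  refine ⟨∏ u, G u, ⟨prod_mem (fun u _ => hGA u), fun σ => ?_⟩,
    Finset.prod_ne_zero_iff.mpr (fun u _ => hG0 u), ?_⟩
  · rw [map_prod, ← Equiv.prod_comp (MulAction.toPerm σ) G]
    exact Finset.prod_congr rfl (fun u _ => hGσ σ u)
  intro φ hφe hφA
  let Q : Polynomial K := ∑ w, Polynomial.C (φ w * c w) * F w
  have hQA : Q ∈ Polynomial.liftsRing A.toSubring.subtype := by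
    refine Subring.sum_mem _ (fun w _ => Subring.mul_mem _ ?_ (hFA w))
    exact (Polynomial.lifts_iff_liftsRing _ _).mp
      (Polynomial.C_mem_lifts A.toSubring.subtype ⟨φ w * c w, A.mul_mem _ _ (hφA w) (hcA w)⟩)
  have hQσ : ∀ σ, Q.map (β σ : K →+* K) = Q := by
    intro σ
    simp only [Q]
    rw [Polynomial.map_sum,
      ← Equiv.sum_comp (MulAction.toPerm σ) (fun w => Polynomial.C (φ w * c w) * F w)]
    refine Finset.sum_congr rfl (fun w _ => ?_)
    rw [Polynomial.map_mul, Polynomial.map_C, hFσ, MulAction.toPerm_apply, hφe, ← hcσ]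
    congr 2
    exact map_mul (β σ) _ _
  have hQl : Q ∈ Polynomial.lifts (fixR A β).subtype := by
    rw [Polynomial.lifts_iff_coeff_lifts]
    intro n
    have hmem : Q.coeff n ∈ fixR A β := by
      refine ⟨?_, fun σ => ?_⟩
      · obtain ⟨y, hy⟩ := (Polynomial.lifts_iff_coeff_lifts _).mp
          ((Polynomial.lifts_iff_liftsRing _ _).mpr hQA) n
        rw [← hy]
        exact y.2
      · have h1 := congrArg (fun p => Polynomial.coeff p n) (hQσ σ)
        simp only [Polynomial.coeff_map] at h1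
        exact h1
    exact ⟨⟨_, hmem⟩, rfl⟩
  obtain ⟨q, hq⟩ := (Polynomial.mem_lifts _).mp hQl
  refine ⟨q, fun v => ?_⟩
  have h1 : Polynomial.aeval (h v) q = Q.eval (h v) := by
    rw [← hq, Polynomial.eval_map]
    rfl
  rw [h1]
  simp only [Q]
  rw [Polynomial.eval_finsetSum, Finset.sum_eq_single v]
  · rw [Polynomial.eval_mul, Polynomial.eval_C, hFeval, if_pos rfl, hd v]
    ring
  · intro w _ hw
    rw [Polynomial.eval_mul, hFeval, if_neg hw, mul_zero]
  · intro hh
    exact absurd (Finset.mem_univ v) hh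

theorem Poly_isPoly_aeval {R : Subring K} {ι' W' : Type*} {T' : ι' → W' → K} {h : W' → K}
    (hh : IsPoly R T' h) (q : Polynomial R) : IsPoly R T' (fun w => Polynomial.aeval (h w) q) := by
  refine IsPoly.congr (isPoly_sum (Finset.range (q.natDegree + 1))
    (fun i w => ((q.coeff i : R) : K) * h w ^ i) (fun i _ => ?_))
    (fun w => ?_)
  · exact (isPoly_const (q.coeff i).2).mul (hh.pow i)
  · rw [Polynomial.aeval_eq_sum_range]
    rfl

/-- (P1) **conductor**. -/
theorem exists_conductor [CharZero K] (hB : Base A β ϖ) [Finite W] [Finite ι]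
    (hTe : ∀ a, Equi β (T a)) (hTA : ∀ a w, T a w ∈ A)
    (hsep : ∀ w w', (∀ a, T a w = T a w') → w = w') :
    ∃ c : ℕ, ∀ φ : W → K, Equi β φ → (∀ w, φ w ∈ A) →
      IsPoly (fixR A β) T (fun w => ϖ ^ c * φ w) := by
  obtain ⟨h, hh, hinj⟩ := exists_injective_isPoly (A := A) (β := β) hsep
  obtain ⟨d, hd, hd0, H⟩ := exists_conductor_of_injective hB h (hh.equi hTe) (hh.mem hTA) hinj
  obtain ⟨c, d', hd', hdd⟩ := hB.dvd_pow d hd hd0
  refine ⟨c, fun φ hφe hφA => ?_⟩
  obtain ⟨q, hq⟩ := H φ hφe hφA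
  refine IsPoly.congr ((isPoly_const hd').mul (Poly_isPoly_aeval hh q)) (fun w => ?_)
  rw [← hq, ← hdd]
  ring

/-- (P2) **closedness**. -/
theorem isPoly_of_approx [CharZero K] (hB : Base A β ϖ) [Finite W] [Finite ι]
    (hTe : ∀ a, Equi β (T a)) (hTA : ∀ a w, T a w ∈ A)
    (hsep : ∀ w w', (∀ a, T a w = T a w') → w = w')
    {φ : W → K} (hφe : Equi β φ)
    (happ : ∀ M : ℕ, ∃ ψ : W → K, IsPoly (fixR A β) T ψ ∧ ∀ w, ∃ b ∈ A, φ w - ψ w = ϖ ^ M * b) :
    IsPoly (fixR A β) T φ := by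
  obtain ⟨c, hc⟩ := exists_conductor hB hTe hTA hsep
  obtain ⟨ψ, hψ, hb⟩ := happ c
  have hϖ : ϖ ^ c ≠ 0 := pow_ne_zero _ hB.unif_ne
  have hχ := hc (fun w => (φ w - ψ w) / ϖ ^ c) (fun σ w => ?_) (fun w => ?_)
  · refine IsPoly.congr (hψ.add hχ) (fun w => ?_)
    rw [mul_div_cancel₀ _ hϖ]
    ring
  · rw [map_div₀, map_sub, map_pow, hB.unif_mem.2 σ, ← hφe, ← hψ.equi hTe]
  · obtain ⟨b, hbA, hbw⟩ := hb w
    rw [hbw, mul_div_cancel_left₀ _ hϖ]
    exact hbA

/-- (P3) **inverse of a pointwise unit**: `φ = c (1 - n)`, `c ∈ R` a unit, `n` polynomial with values in `m_A`;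
`φ⁻¹ = c⁻¹ ∑_{j<N} n^j + n^N φ⁻¹`; (P2). -/
theorem IsPoly.inv [CharZero K] (hB : Base A β ϖ) [Finite W] [Finite ι]
    (hTe : ∀ a, Equi β (T a)) (hTm : ∀ a w, T a w ∈ A.nonunits)
    (hsep : ∀ w w', (∀ a, T a w = T a w') → w = w')
    {φ : W → K} (hφ : IsPoly (fixR A β) T φ) (hu : ∀ w, φ w ∉ A.nonunits) :
    IsPoly (fixR A β) T (fun w => (φ w)⁻¹) := by
  have hTA : ∀ a w, T a w ∈ A := fun a w => Poly_nonunits_mem (hTm a w)
  rcases isEmpty_or_nonempty W with hW | ⟨⟨w₀⟩⟩
  · exact ⟨0, fun w => (hW.false w).elim⟩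
  obtain ⟨c, hc, hcφ⟩ := hφ.exists_const hTm
  have hcu : c ∉ A.nonunits := by
    intro hcn
    apply hu w₀
    have := Poly_nonunits_add (hcφ w₀) hcn
    rwa [sub_add_cancel] at this
  have hc0 : c ≠ 0 := by
    rintro rfl
    exact hcu Poly_nonunits_zero
  have hci : c⁻¹ ∈ fixR A β :=
    ⟨Poly_unit_inv_mem hc.1 hcu, fun σ => by rw [map_inv₀, hc.2 σ]⟩
  have hφ0 : ∀ w, φ w ≠ 0 := by
    intro w h0
    apply hu w
    rw [h0]
    exact Poly_nonunits_zero
  have hφi : ∀ w, (φ w)⁻¹ ∈ A := fun w => Poly_unit_inv_mem (hφ.mem hTA w) (hu w)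
  have hnP : IsPoly (fixR A β) T (fun w => 1 - c⁻¹ * φ w) :=
    (isPoly_const (fixR A β).one_mem).sub ((isPoly_const hci).mul hφ)
  have hnm : ∀ w, 1 - c⁻¹ * φ w ∈ A.nonunits := by
    intro w
    have h1 : 1 - c⁻¹ * φ w = (-c⁻¹) * (φ w - c) := by
      field_simp
      ring
    rw [h1]
    exact Poly_nonunits_mul (A.neg_mem _ hci.1) (hcφ w)
  refine isPoly_of_approx hB hTe hTA hsep (fun σ w => ?_) (fun M => ?_)
  · rw [map_inv₀, hφ.equi hTe]
  · obtain ⟨N, hN⟩ := hB.exists_pow_eq (fun w => 1 - c⁻¹ * φ w) hnm M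
    refine ⟨fun w => c⁻¹ * ∑ j ∈ Finset.range N, (1 - c⁻¹ * φ w) ^ j,
      (isPoly_const hci).mul (isPoly_sum _ (fun j w => (1 - c⁻¹ * φ w) ^ j)
        (fun j _ => hnP.pow j)), fun w => ?_⟩
    obtain ⟨b, hbA, hb⟩ := hN N le_rfl w
    refine ⟨b * (φ w)⁻¹, A.mul_mem _ _ hbA (hφi w), ?_⟩
    rw [← mul_assoc, ← hb]
    have h2 := geom_sum_mul_neg (1 - c⁻¹ * φ w) N
    have h3 : (1 : K) - (1 - c⁻¹ * φ w) = c⁻¹ * φ w := by ring
    rw [h3] at h2
    have h4 : (1 - c⁻¹ * φ w) ^ N = 1 - (∑ j ∈ Finset.range N, (1 - c⁻¹ * φ w) ^ j) * (c⁻¹ * φ w) := by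
      rw [h2]
      ring
    rw [h4]
    have := hφ0 w
    field_simp

theorem Poly_inv_mem {x : K} (hx : x ∈ A) (hu : x ∉ A.nonunits) : x⁻¹ ∈ A := by
  have h1 : A.valuation x = 1 :=
    le_antisymm ((A.valuation_le_one_iff _).2 hx)
      (not_lt.1 (fun h => hu ((A.mem_nonunits_iff).2 h)))
  exact (A.valuation_le_one_iff _).1 (by rw [map_inv₀, h1, inv_one])

theorem Poly_ne_zero_of_not_nonunits {x : K} (hu : x ∉ A.nonunits) : x ≠ 0 := by
  rintro rfl
  exact hu ((A.mem_nonunits_iff).2 (by simp))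

theorem Poly_sum_mem {J : Type*} (s : Finset J) (f : J → K) (h : ∀ j ∈ s, f j ∈ A) :
    ∑ j ∈ s, f j ∈ A := by
  classical
  induction s using Finset.induction_on with
  | empty => simp
  | insert j s hj ih =>
    rw [Finset.sum_insert hj]
    exact A.add_mem _ _ (h j (Finset.mem_insert_self _ _))
      (ih (fun i hi => h i (Finset.mem_insert_of_mem hi)))

theorem Poly_pow_mem {x : K} (hx : x ∈ A) (n : ℕ) : x ^ n ∈ A := by
  induction n with
  | zero => simp
  | succ n ih => rw [pow_succ]; exact A.mul_mem _ _ ih hx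

/-- `t - s ∈ t^(n+1) A` implies `t^(k+2) - s^(k+2) ∈ t^(n+2) A`. -/
theorem Poly_pow_sub_pow {t s b : K} (ht : t ∈ A) (hb : b ∈ A) (n k : ℕ)
    (h : t - s = t ^ (n + 1) * b) :
    ∃ c ∈ A, t ^ (k + 2) - s ^ (k + 2) = t ^ (n + 2) * c := by
  set u : K := 1 - t ^ n * b with hu
  have huA : u ∈ A := A.sub_mem A.one_mem (A.mul_mem _ _ (Poly_pow_mem ht n) hb)
  have hs : s = t * u := by
    rw [hu]; linear_combination (-1 : K) * h
  refine ⟨t ^ k * b * ∑ i ∈ Finset.range (k + 2), u ^ i,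
    A.mul_mem _ _ (A.mul_mem _ _ (Poly_pow_mem ht k) hb)
      (Poly_sum_mem _ _ (fun i _ => Poly_pow_mem huA i)), ?_⟩
  have hg : (1 - u) * ∑ i ∈ Finset.range (k + 2), u ^ i = 1 - u ^ (k + 2) := mul_neg_geom_sum u (k + 2)
  have h1u : 1 - u = t ^ n * b := by rw [hu]; ring
  rw [hs, mul_pow]
  calc t ^ (k + 2) - t ^ (k + 2) * u ^ (k + 2) = t ^ (k + 2) * (1 - u ^ (k + 2)) := by ring
    _ = t ^ (k + 2) * ((t ^ n * b) * ∑ i ∈ Finset.range (k + 2), u ^ i) := by rw [← hg, h1u]
    _ = t ^ (n + 2) * (t ^ k * b * ∑ i ∈ Finset.range (k + 2), u ^ i) := by ring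

/-- the Hensel iteration. -/
noncomputable def Poly_iter {W : Type*} (a : ℕ → W → K) : ℕ → W → K
  | 0 => fun _ => 0
  | n + 1 => fun w => - (a 1 w)⁻¹ *
      (a 0 w + ∑ k ∈ Finset.range n, a (k + 2) w * (Poly_iter a n w) ^ (k + 2))

/-- (P4) **implicit root**.  `τ_0 = 0`, `τ_{n+1} = - a_1⁻¹ (a_0 + ∑_{2 ≤ k < n+2} a_k τ_n^k)`; by induction
`τ w - τ_n w ∈ (τ w)^(n+1) A`; each `τ_n` is polynomial by (P3); conclude by `exists_pow_eq` and (P2). -/
theorem isPoly_of_implicit [CharZero K] (hB : Base A β ϖ) [Finite W] [Finite ι]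
    (hTe : ∀ a, Equi β (T a)) (hTm : ∀ a w, T a w ∈ A.nonunits)
    (hsep : ∀ w w', (∀ a, T a w = T a w') → w = w')
    {τ : W → K} (hτe : Equi β τ) (hτm : ∀ w, τ w ∈ A.nonunits)
    (a : ℕ → W → K) (ha : ∀ n, IsPoly (fixR A β) T (a n))
    (ha1 : ∀ w, a 1 w ∉ A.nonunits)
    (hrel : ∀ (N : ℕ) (w : W), ∃ b ∈ A, ∑ n ∈ Finset.range N, a n w * τ w ^ n = τ w ^ N * b) :
    IsPoly (fixR A β) T τ := by
  have hTA : ∀ a w, T a w ∈ A := fun a w => A.nonunits_subset (hTm a w)
  have haA : ∀ n w, a n w ∈ A := fun n w => (ha n).mem hTA w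
  have hτA : ∀ w, τ w ∈ A := fun w => A.nonunits_subset (hτm w)
  have hinv : IsPoly (fixR A β) T (fun w => (a 1 w)⁻¹) := IsPoly.inv hB hTe hTm hsep (ha 1) ha1
  -- each iterate is polynomial
  have hpoly : ∀ n, IsPoly (fixR A β) T (Poly_iter a n) := by
    intro n
    induction n with
    | zero => exact isPoly_const (fixR A β).zero_mem
    | succ n ih =>
      exact (hinv.neg).mul ((ha 0).add (isPoly_sum _ _ (fun k _ => (ha (k + 2)).mul (ih.pow (k + 2)))))
  -- approximation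
  have happ : ∀ n w, ∃ b ∈ A, τ w - Poly_iter a n w = τ w ^ (n + 1) * b := by
    intro n
    induction n with
    | zero => intro w; exact ⟨1, A.one_mem, by simp [Poly_iter]⟩
    | succ n ih =>
      intro w
      obtain ⟨b, hb, hbe⟩ := ih w
      obtain ⟨e, he, hee⟩ := hrel (n + 2) w
      have hc : ∀ k, ∃ c ∈ A, τ w ^ (k + 2) - Poly_iter a n w ^ (k + 2) = τ w ^ (n + 2) * c :=
        fun k => Poly_pow_sub_pow (hτA w) hb n k hbe
      choose c hcA hce using hc
      have h1 : a 1 w ≠ 0 := Poly_ne_zero_of_not_nonunits (ha1 w)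
      have hi : (a 1 w)⁻¹ ∈ A := Poly_inv_mem (haA 1 w) (ha1 w)
      refine ⟨(a 1 w)⁻¹ * (e - ∑ k ∈ Finset.range n, a (k + 2) w * c k),
        A.mul_mem _ _ hi (A.sub_mem he (Poly_sum_mem _ _ (fun k _ => A.mul_mem _ _ (haA _ w) (hcA k)))), ?_⟩
      rw [Finset.sum_range_succ', Finset.sum_range_succ'] at hee
      have hsum : ∑ k ∈ Finset.range n, a (k + 2) w * τ w ^ (k + 2)
          - ∑ k ∈ Finset.range n, a (k + 2) w * Poly_iter a n w ^ (k + 2)
          = τ w ^ (n + 2) * ∑ k ∈ Finset.range n, a (k + 2) w * c k := by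
        rw [← Finset.sum_sub_distrib, Finset.mul_sum]
        refine Finset.sum_congr rfl (fun k _ => ?_)
        rw [← mul_sub, hce k]; ring
      have hee' : ∑ k ∈ Finset.range n, a (k + 2) w * τ w ^ (k + 2) + a 1 w * τ w + a 0 w
          = τ w ^ (n + 2) * e := by
        simpa using hee
      show τ w - - (a 1 w)⁻¹ *
        (a 0 w + ∑ k ∈ Finset.range n, a (k + 2) w * (Poly_iter a n w) ^ (k + 2)) = _
      field_simp
      linear_combination hee' - hsum
  refine isPoly_of_approx hB hTe hTA hsep hτe (fun M => ?_)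
  obtain ⟨N, hN⟩ := hB.exists_pow_eq τ hτm M
  refine ⟨Poly_iter a N, hpoly N, fun w => ?_⟩
  obtain ⟨b, hb, hbe⟩ := happ N w
  obtain ⟨b', hb', hbe'⟩ := hN (N + 1) (Nat.le_succ N) w
  exact ⟨b' * b, A.mul_mem _ _ hb' hb, by rw [hbe, hbe']; ring⟩

end Main

end Fermat.Agent.S19.RL
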