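import Fermat.Agent.S19.Geo0.Lift
import Fermat.Agent.S19.RL.Poly

/-!
# S19 / RL / Iner : the inertia action on a valued function field

On top of `S19/Geo0` (`hG : Good V y yt`, `rP hG`, `rD hG`).  `G` is a subgroup of `SemilinearAut K F` (`=` the image of the
inertia group of `A`), acting on `K` through `βG G`; `R' = fixR A (βG G) = A ∩ K^G`.

* `Inv G f`   : `f ∈ F^G`;
* `FixP G v`  : the place `v` is `G`-fixed ("`L0`-rational point");
* `Iner V y G`: `G` acts trivially on reductions, fixes the coordinate `y`, `F = K · F^G`, `R' → k` is onto.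
-/

set_option autoImplicit false
set_option linter.unusedSectionVars false

namespace Fermat.Agent.S19.RL

open AlgebraicCurve Fermat.Agent.S26 Fermat.Agent.S37.Red Fermat.Agent.S19.Geo0

variable {K k : Type*} [Field K] [Field k] {A : ValuationSubring K} {π : A →+* k}
variable {F Ft : Type*} [Field F] [Field Ft] [Algebra K F] [Algebra k Ft]

/-- `SemilinearAut.baseAut` as a monoid hom. -/
def baseHom : SemilinearAut K F →* RingAut K where
  toFun := SemilinearAut.baseAut
  map_one' := rfl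
  map_mul' _ _ := rfl

/-- the action of `G` on the constants. -/
def βG (G : Subgroup (SemilinearAut K F)) : G →* RingAut K := baseHom.comp G.subtype

@[simp] theorem βG_apply (G : Subgroup (SemilinearAut K F)) (σ : G) (a : K) :
    βG G σ a = SemilinearAut.baseAut (σ : SemilinearAut K F) a := rfl

/-- `f ∈ F^G`. -/
def Inv (G : Subgroup (SemilinearAut K F)) (f : F) : Prop := ∀ σ ∈ G, σ • f = f

/-- `v` is a `G`-fixed place. -/
def FixP (G : Subgroup (SemilinearAut K F)) (v : Place K F) : Prop := ∀ σ ∈ G, σ • v = v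

/-- `G` is an "inertia group" for the valued function field `V` with coordinate `y`. -/
structure Iner (V : VFF A π F Ft) (y : F) (G : Subgroup (SemilinearAut K F)) : Prop where
  red_smul : ∀ σ ∈ G, ∀ (f : F) (ft : Ft), V.Red f ft → V.Red (σ • f) ft
  y_fixed : Inv G y
  span : ∀ f : F, f ∈ Submodule.span K {f' : F | Inv G f'}
  res_surj : ∀ c : k, ∃ a ∈ fixR A (βG G), res π a = c

section Inv

variable {G : Subgroup (SemilinearAut K F)}

theorem inv_zero : Inv G (0 : F) := fun σ _ => smul_zero σ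

theorem inv_one : Inv G (1 : F) := fun σ _ => smul_one σ

theorem Inv.add {f g : F} (hf : Inv G f) (hg : Inv G g) : Inv G (f + g) := fun σ hσ => by
  rw [smul_add, hf σ hσ, hg σ hσ]

theorem Inv.sub {f g : F} (hf : Inv G f) (hg : Inv G g) : Inv G (f - g) := fun σ hσ => by
  rw [smul_sub, hf σ hσ, hg σ hσ]

theorem Inv.neg {f : F} (hf : Inv G f) : Inv G (-f) := fun σ hσ => by
  rw [smul_neg, hf σ hσ]

theorem Inv.mul {f g : F} (hf : Inv G f) (hg : Inv G g) : Inv G (f * g) := fun σ hσ => by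
  rw [smul_mul', hf σ hσ, hg σ hσ]

theorem Inv.pow {f : F} (hf : Inv G f) (n : ℕ) : Inv G (f ^ n) := fun σ hσ => by
  rw [smul_pow', hf σ hσ]

theorem Inv.inv {f : F} (hf : Inv G f) : Inv G f⁻¹ := fun σ hσ => by
  rw [smul_inv'', hf σ hσ]

theorem Inv.div {f g : F} (hf : Inv G f) (hg : Inv G g) : Inv G (f / g) := by
  rw [div_eq_mul_inv]; exact hf.mul hg.inv

theorem inv_sum {J : Type*} (s : Finset J) (f : J → F) (h : ∀ j ∈ s, Inv G (f j)) :
    Inv G (∑ j ∈ s, f j) := fun σ hσ => by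
  rw [Finset.smul_sum]; exact Finset.sum_congr rfl fun j hj => h j hj σ hσ

/-- constants of `K^G`. -/
theorem inv_algebraMap {a : K} (ha : ∀ σ : G, βG G σ a = a) : Inv G (algebraMap K F a) :=
  fun σ hσ => by
    rw [SemilinearAut.smul_algebraMap]; exact congrArg _ (ha ⟨σ, hσ⟩)

theorem inv_algebraMap_of_mem {a : K} (ha : a ∈ fixR A (βG G)) : Inv G (algebraMap K F a) :=
  inv_algebraMap ha.2

/-- the value of an invariant function at a fixed place is invariant (`val_smul`). -/
theorem Inv.val_fixed {f : F} (hf : Inv G f) {v : Place K F} (hv : FixP G v) (σ : G) :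
    βG G σ (val v f) = val v f := by
  have h := val_smul v (σ : SemilinearAut K F) f
  rw [hf σ σ.2, hv σ σ.2] at h
  exact h.symm

end Inv

section Iner

variable {V : VFF A π F Ft} {y : F} {yt : Ft} {G : Subgroup (SemilinearAut K F)}

/-- `G` preserves `A` (apply `red_smul` to constants: `VFF.red_const`, `V.algebraMap_mem_iff`). -/
theorem Iner.base_mem (hI : Iner V y G) (σ : G) {a : K} (ha : a ∈ A) : βG G σ a ∈ A := by
  have h := hI.red_smul σ σ.2 _ _ (V.red_const ha)
  rw [SemilinearAut.smul_algebraMap] at h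
  exact (V.algebraMap_mem_iff _).1 h.mem

/-- `G` acts trivially on the residue field. -/
theorem Iner.base_res (hI : Iner V y G) (σ : G) {a : K} (ha : a ∈ A) :
    res π (βG G σ a) = res π a := by
  have h := hI.red_smul σ σ.2 _ _ (V.red_const ha)
  rw [SemilinearAut.smul_algebraMap] at h
  have h' := V.red_const (hI.base_mem σ ha)
  exact (algebraMap k Ft).injective (h'.unique h)

theorem Iner.base_nonunits (hI : Iner V y G) (σ : G) {a : K} (ha : a ∈ A.nonunits) :
    βG G σ a ∈ A.nonunits := by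
  have haA : a ∈ A := A.nonunits_subset ha
  rw [← res_eq_zero_iff V.π_surjective (hI.base_mem σ haA), hI.base_res σ haA,
    res_eq_zero_iff V.π_surjective haA]
  exact ha

theorem Iner.mem_O (hI : Iner V y G) {σ : SemilinearAut K F} (hσ : σ ∈ G) {f : F} (hf : f ∈ V.O) :
    σ • f ∈ V.O := by
  obtain ⟨ft, h⟩ := V.exists_red hf
  exact (hI.red_smul σ hσ f ft h).mem

/-- a semilinear automorphism preserving `A` and fixing `z` maps `B_A(z)` to itself. -/
theorem Iner_intA_smul_aux (σ : SemilinearAut K F) (hA : ∀ a ∈ A, SemilinearAut.baseAut σ a ∈ A)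
    {z : F} (hz : σ • z = z) {b : F} (hb : IntA A z b) : IntA A z (σ • b) := by
  let τ : A →+* A :=
    { toFun := fun a => ⟨SemilinearAut.baseAut σ a, hA a a.2⟩
      map_one' := Subtype.ext (map_one (SemilinearAut.baseAut σ))
      map_mul' := fun a b => Subtype.ext (map_mul (SemilinearAut.baseAut σ) (a : K) (b : K))
      map_zero' := Subtype.ext (map_zero (SemilinearAut.baseAut σ))
      map_add' := fun a b => Subtype.ext (map_add (SemilinearAut.baseAut σ) (a : K) (b : K)) }
  let φ : F →+* F := (SemilinearAut.toRingAut σ : F →+* F)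
  have hφ : ∀ x : F, φ x = σ • x := fun x => rfl
  have hcomp : φ.comp (evA A z) = (evA A z).comp (Polynomial.mapRingHom τ) := by
    apply Polynomial.ringHom_ext
    · intro a
      simp only [RingHom.comp_apply, evA_apply, Polynomial.coe_mapRingHom, Polynomial.map_C,
        Polynomial.aeval_C]
      rw [hφ, SemilinearAut.smul_algebraMap]
      rfl
    · simp only [RingHom.comp_apply, evA_apply, Polynomial.coe_mapRingHom, Polynomial.map_X,
        Polynomial.aeval_X]
      rw [hφ, hz]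
  obtain ⟨P, hP, hPb⟩ := hb
  refine ⟨P.map (Polynomial.mapRingHom τ), hP.map _, ?_⟩
  rw [Polynomial.eval₂_map, ← hcomp, ← hφ, ← Polynomial.hom_eval₂, hPb, map_zero]

/-- `σ` maps `B_A(y)` to itself (apply `σ` to the monic equation; its coefficients are polynomials in `y` over `A`). -/
theorem Iner.intA_smul (hI : Iner V y G) {σ : SemilinearAut K F} (hσ : σ ∈ G) {b : F}
    (hb : IntA A y b) : IntA A y (σ • b) := by
  exact Iner_intA_smul_aux σ (fun a ha => hI.base_mem ⟨σ, hσ⟩ ha) (hI.y_fixed σ hσ) hb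

theorem Iner.intA_inv_smul (hI : Iner V y G) {σ : SemilinearAut K F} (hσ : σ ∈ G) {b : F}
    (hb : IntA A y⁻¹ b) : IntA A y⁻¹ (σ • b) := by
  exact Iner_intA_smul_aux σ (fun a ha => hI.base_mem ⟨σ, hσ⟩ ha) (hI.y_fixed.inv σ hσ) hb

variable [IsAlgClosed K] [FF1 K F] [IsAlgClosed k] [FF1 k Ft]

/-- `G` acts trivially on residues, also for `a ∉ A` (both sides are the junk value). -/
theorem Iner_res_base (hI : Iner V y G) (σ : G) (a : K) : res π (βG G σ a) = res π a := by
  by_cases ha : a ∈ A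
  · exact hI.base_res σ ha
  · have h1 : βG G σ a ∉ A := by
      intro h
      apply ha
      have h2 := hI.base_mem σ⁻¹ h
      have h3 : βG G σ⁻¹ (βG G σ a) = a := by
        rw [← RingAut.mul_apply, ← map_mul, inv_mul_cancel, map_one, RingAut.one_apply]
      rwa [h3] at h2
    rw [res, res, dif_neg h1, dif_neg ha]

/-- both charts at once. -/
theorem Iner_isCenIn_aux (hI : Iner V y G) {z : F} {zt : Ft} (hz : Inv G z)
    (hint : ∀ τ ∈ G, ∀ b : F, IntA A z b → IntA A z (τ • b))
    {σ : SemilinearAut K F} (hσ : σ ∈ G) {v : Place K F}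
    {Q : Place k Ft} (h : IsCenIn V z zt v Q) : IsCenIn V z zt (σ • v) Q := by
  obtain ⟨⟨h1, h2⟩, h3, h4⟩ := h
  refine ⟨⟨?_, ?_⟩, h3, fun b bt hb hbt => ?_⟩
  · have := (reg_smul_iff v σ (f := z)).2 h1
    rwa [hz σ hσ] at this
  · have h5 := val_smul v σ z
    rw [hz σ hσ] at h5
    rw [h5]
    exact hI.base_mem ⟨σ, hσ⟩ h2
  · have hσ' : σ⁻¹ ∈ G := G.inv_mem hσ
    have h5 := h4 (σ⁻¹ • b) bt (hint σ⁻¹ hσ' b hb) (hI.red_smul σ⁻¹ hσ' b bt hbt)
    have h6 := val_smul v σ (σ⁻¹ • b)
    rw [smul_inv_smul] at h6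
    rw [h5, h6]
    exact (Iner_res_base hI ⟨σ, hσ⟩ _).symm

/-- one chart: `IsCenIn V y yt v Q → IsCenIn V y yt (σ • v) Q`.
(`InChart`: `reg_smul_iff`, `val_smul`, `y_fixed`, `base_mem`.  For `b ∈ B_A(y)`: `b = σ • (σ⁻¹ • b)`, `σ⁻¹ • b ∈ B_A(y)` reduces to `bt` too, and
`val (σ • v) b = β σ (val v (σ⁻¹ • b))`, whose residue is `res (val v (σ⁻¹ • b)) = val Q bt`.) -/
theorem Iner.isCenIn_smul (hI : Iner V y G) {σ : SemilinearAut K F} (hσ : σ ∈ G) {v : Place K F}
    {Q : Place k Ft} (h : IsCenIn V y yt v Q) : IsCenIn V y yt (σ • v) Q := by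
  exact Iner_isCenIn_aux hI hI.y_fixed (fun _ hτ _ hb => hI.intA_smul hτ hb) hσ h

/-- the same in the chart `y⁻¹`. -/
theorem Iner.isCenIn_inv_smul (hI : Iner V y G) {σ : SemilinearAut K F} (hσ : σ ∈ G)
    {v : Place K F} {Q : Place k Ft} (h : IsCenIn V y⁻¹ yt⁻¹ v Q) :
    IsCenIn V y⁻¹ yt⁻¹ (σ • v) Q := by
  exact Iner_isCenIn_aux hI hI.y_fixed.inv (fun _ hτ _ hb => hI.intA_inv_smul hτ hb) hσ h

/-- **inertia acts trivially on the special fibre.** -/
theorem Iner.rP_smul (hI : Iner V y G) (hG : Good V y yt) {σ : SemilinearAut K F} (hσ : σ ∈ G)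
    (v : Place K F) : rP hG (σ • v) = rP hG v := by
  rw [rP_eq_iff]
  rcases isCen_rP hG v with h | ⟨hd, h⟩
  · exact Or.inl (hI.isCenIn_smul hσ h)
  · have h1 := hI.isCenIn_inv_smul hσ h
    refine Or.inr ⟨⟨h1.1, ?_⟩, h1⟩
    have h5 := val_smul v σ y⁻¹
    rw [hI.y_fixed.inv σ hσ] at h5
    rw [h5]
    exact (Iner_res_base hI ⟨σ, hσ⟩ _).trans hd.2

end Iner

end Fermat.Agent.S19.RL
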