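import Fermat.Agent.S19.RL.Iner

/-!
# S19 / RL / Param : residue discs, invariant parameters, Taylor expansions

`hG : Good V y yt` (Geo0), `G` an inertia group (`Iner V y G`), `R' = fixR A (βG G)`.
The residue disc of `Q : Place k Ft` is `{v | rP hG v = Q}`.

* `IsParam hG G t v₀` : `t ∈ F^G ∩ O`, without poles on the disc of `v₀`, `t(v₀) = 0`, and `red t` is a uniformiser at `rP v₀`;
* `GoodOn hG G Q s`   : `s ∈ F^G ∩ O` without poles on the disc of `Q`;
* `GoodOn.expand`     : `s = ∑_{n<N} a_n t^n + t^N s_N`, `a_n ∈ R'`, `s_N` again `GoodOn`;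
* `GoodOn.isPoly_val` : `w ↦ s(Y w)` is a polynomial function as soon as `w ↦ t(Y w)` is.
-/

set_option autoImplicit false
set_option linter.unusedSectionVars false

namespace Fermat.Agent.S19.RL

open AlgebraicCurve Fermat.Agent.S26 Fermat.Agent.S37.Red Fermat.Agent.S19.Geo0

variable {K k : Type*} [Field K] [Field k] {A : ValuationSubring K} {π : A →+* k}
variable {F Ft : Type*} [Field F] [Field Ft] [Algebra K F] [Algebra k Ft]
variable [IsAlgClosed K] [FF1 K F] [IsAlgClosed k] [FF1 k Ft]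
variable {V : VFF A π F Ft} {y : F} {yt : Ft} {G : Subgroup (SemilinearAut K F)}

/-! ### zeros on a disc -/

/-- (helper) a finite sum of non-negative integers equal to `0` has only zero terms. -/
theorem Param_finsum_mem_eq_zero {α : Type*} (s : Set α) (f : α → ℤ)
    (hfin : (s ∩ Function.support f).Finite) (h0 : ∀ v ∈ s, 0 ≤ f v)
    (h1 : ∑ᶠ (v : α) (_ : v ∈ s), f v = 0) : ∀ v ∈ s, f v = 0 := by
  classical
  intro v hv
  rw [finsum_mem_eq_sum f hfin] at h1
  by_contra hf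
  have hm : v ∈ hfin.toFinset := by simp [hv, hf]
  exact hf ((Finset.sum_eq_zero_iff_of_nonneg fun x hx => h0 x (by
    have : x ∈ s ∩ Function.support f := by simpa using hx
    exact this.1)).1 h1 v hm)

/-- a function without poles on the disc of `Q` whose reduction is a unit at `Q` has no zeros on the disc
(`Geo0.ord_red`: the orders are `≥ 0` and sum to `0`; the finsum has finite support by `S26.finite_ord_ne_zero`). -/
theorem ord_eq_zero_of_red (hG : Good V y yt) {h : F} {ht : Ft} (hh : V.Red h ht) (hne : ht ≠ 0)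
    {Q : Place k Ft} (hreg : ∀ v, rP hG v = Q → Reg v h) (h0 : Q.ord ht = 0)
    {v : Place K F} (hv : rP hG v = Q) : v.ord h = 0 := by
  have hh0 : h ≠ 0 := hh.ne_zero hne
  have hsum := ord_red hG hh hne Q
  rw [h0] at hsum
  refine Param_finsum_mem_eq_zero {v : Place K F | rP hG v = Q} (fun v => v.ord h) ?_ ?_ hsum.symm v hv
  · exact (finite_ord_ne_zero hh0).subset fun v hv => hv.2
  · intro v hv
    exact (reg_iff_ord v).1 (hreg v hv)

/-- a function without poles on the disc of `Q` whose reduction has a simple zero at `Q` has exactly one zero on the disc, and it is simple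
(`Geo0.ord_red`: the orders are `≥ 0` and sum to `1`). -/
theorem exists_zero_of_red (hG : Good V y yt) {h : F} {ht : Ft} (hh : V.Red h ht)
    {Q : Place k Ft} (hreg : ∀ v, rP hG v = Q → Reg v h) (h1 : Q.ord ht = 1) :
    ∃ v₀ : Place K F, rP hG v₀ = Q ∧ v₀.ord h = 1 ∧ ∀ v, rP hG v = Q → v ≠ v₀ → v.ord h = 0 := by
  have hne : ht ≠ 0 := by
    rintro rfl
    simp at h1
  have hh0 : h ≠ 0 := hh.ne_zero hne
  have hsum := ord_red hG hh hne Q
  rw [h1] at hsum
  obtain ⟨v₀, hv₀, h2, h3⟩ := finsum_mem_eq_one_aux {v : Place K F | rP hG v = Q}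
    (fun v => v.ord h) ((finite_ord_ne_zero hh0).subset fun v hv => hv.2)
    (fun v hv => (reg_iff_ord v).1 (hreg v hv)) hsum.symm
  exact ⟨v₀, hv₀, h2, h3⟩

/-! ### parameters -/

/-- `t` is a `G`-invariant parameter on the residue disc of `v₀`, centred at `v₀`. -/
structure IsParam (hG : Good V y yt) (G : Subgroup (SemilinearAut K F)) (t : F) (v₀ : Place K F) :
    Prop where
  inv : Inv G t
  red : ∃ tt : Ft, V.Red t tt ∧ (rP hG v₀).ord tt = 1
  reg : ∀ v, rP hG v = rP hG v₀ → Reg v t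
  van : Van v₀ t

variable {hG : Good V y yt} {t : F} {v₀ : Place K F}

theorem Param_red_ne_zero {Q : Place k Ft} {tt : Ft} (h : Q.ord tt = 1) : tt ≠ 0 := by
  rintro rfl
  rw [Place.ord_zero] at h
  exact zero_ne_one h

theorem IsParam.ne_zero (ht : IsParam hG G t v₀) : t ≠ 0 := by
  obtain ⟨tt, hred, hord⟩ := ht.red
  exact hred.ne_zero (Param_red_ne_zero hord)

theorem IsParam.mem_O (ht : IsParam hG G t v₀) : t ∈ V.O := by
  obtain ⟨tt, h, -⟩ := ht.red
  exact h.mem

theorem IsParam.inv_mem_O (ht : IsParam hG G t v₀) : t⁻¹ ∈ V.O := by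
  obtain ⟨tt, hred, hord⟩ := ht.red
  exact (hred.inv (Param_red_ne_zero hord)).mem

/-- the unique zero of `t` on the disc is `v₀`. -/
theorem Param_zero (ht : IsParam hG G t v₀) :
    v₀.ord t = 1 ∧ ∀ v, rP hG v = rP hG v₀ → v ≠ v₀ → v.ord t = 0 := by
  obtain ⟨tt, hred, hord⟩ := ht.red
  obtain ⟨v₁, -, h1, h2⟩ := exists_zero_of_red hG hred ht.reg hord
  have hpos : 0 < v₀.ord t := ord_pos_of_van v₀ ht.van ht.ne_zero
  have h01 : v₀ = v₁ := by
    by_contra hne
    rw [h2 v₀ rfl hne] at hpos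
    exact lt_irrefl _ hpos
  subst h01
  exact ⟨h1, h2⟩

theorem IsParam.ord_eq_one (ht : IsParam hG G t v₀) : v₀.ord t = 1 := by
  exact (Param_zero ht).1

theorem IsParam.ord_eq_zero (ht : IsParam hG G t v₀) {v : Place K F} (hv : rP hG v = rP hG v₀)
    (hne : v ≠ v₀) : v.ord t = 0 := by
  exact (Param_zero ht).2 v hv hne

/-- the centre is a `G`-fixed place (`σ • v₀` is a zero of `σ • t = t` on the same disc, `Iner.rP_smul`). -/
theorem IsParam.fixP (ht : IsParam hG G t v₀) (hI : Iner V y G) : FixP G v₀ := by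
  intro σ hσ
  by_contra hne
  have h1 : Van (σ • v₀) t := by
    have h2 := (van_smul_iff v₀ σ (f := t)).2 ht.van
    rwa [ht.inv σ hσ] at h2
  have h3 : 0 < (σ • v₀).ord t := ord_pos_of_van _ h1 ht.ne_zero
  rw [ht.ord_eq_zero (hI.rP_smul hG hσ v₀) hne] at h3
  exact lt_irrefl _ h3

/-- `t(v) ∈ m_A` on the disc (`Geo0.val_red`, `val Q tt = 0`). -/
theorem IsParam.val_mem (ht : IsParam hG G t v₀) {v : Place K F} (hv : rP hG v = rP hG v₀) :
    val v t ∈ A.nonunits := by
  obtain ⟨tt, hred, hord⟩ := ht.red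
  have h0 : val (rP hG v₀) tt = 0 :=
    val_eq_zero_of_van _ (van_of_ord_pos _ (by rw [hord]; exact one_pos))
  obtain ⟨hmem, hres⟩ := (val_red hG hred ht.reg).2 v hv
  rw [h0] at hres
  exact (res_eq_zero_iff V.π_surjective hmem).1 hres

/-- `t` is injective on the disc (`Geo0.exists_unique_val`). -/
theorem IsParam.eq_of_val_eq (ht : IsParam hG G t v₀) {v v' : Place K F}
    (hv : rP hG v = rP hG v₀) (hv' : rP hG v' = rP hG v₀) (h : val v t = val v' t) : v = v' := by
  obtain ⟨tt, hred, hord⟩ := ht.red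
  have h0 : val (rP hG v₀) tt = 0 :=
    val_eq_zero_of_van _ (van_of_ord_pos _ (by rw [hord]; exact one_pos))
  obtain ⟨hmem, hres⟩ := (val_red hG hred ht.reg).2 v hv
  have h1 : (rP hG v₀).ord (tt - algebraMap k Ft (val (rP hG v₀) tt)) = 1 := by
    rw [h0, map_zero, sub_zero]
    exact hord
  exact (exists_unique_val hG hred ht.reg h1 hmem hres).unique ⟨hv, rfl⟩ ⟨hv', h.symm⟩

/-! ### good functions on a disc -/

/-- `s ∈ F^G ∩ O` without poles on the disc of `Q`. -/
structure GoodOn (hG : Good V y yt) (G : Subgroup (SemilinearAut K F)) (Q : Place k Ft) (s : F) :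
    Prop where
  inv : Inv G s
  mem : s ∈ V.O
  reg : ∀ v, rP hG v = Q → Reg v s

variable {Q : Place k Ft} {s s' : F}

theorem IsParam.goodOn (ht : IsParam hG G t v₀) : GoodOn hG G (rP hG v₀) t :=
  ⟨ht.inv, ht.mem_O, ht.reg⟩

theorem goodOn_const {a : K} (ha : a ∈ fixR A (βG G)) : GoodOn hG G Q (algebraMap K F a) :=
  ⟨inv_algebraMap_of_mem ha, (V.algebraMap_mem_iff a).2 ha.1, fun v _ => reg_algebraMap v a⟩

theorem GoodOn.add (hs : GoodOn hG G Q s) (hs' : GoodOn hG G Q s') : GoodOn hG G Q (s + s') :=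
  ⟨hs.inv.add hs'.inv, V.O.add_mem _ _ hs.mem hs'.mem, fun v hv => (hs.reg v hv).add v (hs'.reg v hv)⟩

theorem GoodOn.sub (hs : GoodOn hG G Q s) (hs' : GoodOn hG G Q s') : GoodOn hG G Q (s - s') :=
  ⟨hs.inv.sub hs'.inv, V.O.sub_mem hs.mem hs'.mem, fun v hv => (hs.reg v hv).sub v (hs'.reg v hv)⟩

theorem GoodOn.mul (hs : GoodOn hG G Q s) (hs' : GoodOn hG G Q s') : GoodOn hG G Q (s * s') :=
  ⟨hs.inv.mul hs'.inv, V.O.mul_mem _ _ hs.mem hs'.mem, fun v hv => (hs.reg v hv).mul v (hs'.reg v hv)⟩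

/-- values on the disc are integral (`Geo0.val_red`). -/
theorem GoodOn.val_mem (hs : GoodOn hG G Q s) {v : Place K F} (hv : rP hG v = Q) : val v s ∈ A := by
  obtain ⟨st, hst⟩ := V.exists_red hs.mem
  exact ((val_red hG hst hs.reg).2 v hv).1

/-- the value at a fixed place of the disc lies in `R'`. -/
theorem GoodOn.val_mem_fixR (hs : GoodOn hG G Q s) {v : Place K F} (hv : rP hG v = Q)
    (hfix : FixP G v) : val v s ∈ fixR A (βG G) :=
  ⟨hs.val_mem hv, fun σ => hs.inv.val_fixed hfix σ⟩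

/-- **one step of the Taylor expansion**: `(s - s(v₀)) / t` is again good.
(`O`: `t⁻¹ ∈ O`.  Poles: at `v ≠ v₀` of the disc `ord_v t = 0`; at `v₀`: `ord (s - s(v₀)) ≥ 1 = ord t`, or `s - s(v₀) = 0`.) -/
theorem GoodOn.step (hs : GoodOn hG G (rP hG v₀) s) (ht : IsParam hG G t v₀) (hI : Iner V y G) :
    GoodOn hG G (rP hG v₀) ((s - algebraMap K F (val v₀ s)) / t) := by
  have ha : val v₀ s ∈ fixR A (βG G) := hs.val_mem_fixR rfl (ht.fixP hI)
  have hu : GoodOn hG G (rP hG v₀) (s - algebraMap K F (val v₀ s)) := hs.sub (goodOn_const ha)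
  have ht0 : t ≠ 0 := ht.ne_zero
  refine ⟨hu.inv.div ht.inv, ?_, fun v hv => ?_⟩
  · rw [div_eq_mul_inv]
    exact V.O.mul_mem _ _ hu.mem ht.inv_mem_O
  · by_cases hvv : v = v₀
    · subst hvv
      have hvan : Van v (s - algebraMap K F (val v s)) := van_sub_val v (hs.reg v rfl)
      by_cases hu0 : s - algebraMap K F (val v s) = 0
      · rw [hu0, zero_div]
        exact reg_zero v
      · have hpos := ord_pos_of_van v hvan hu0
        rw [reg_iff_ord, div_eq_mul_inv, v.ord_mul hu0 (inv_ne_zero ht0), v.ord_inv,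
          ht.ord_eq_one]
        omega
    · rw [div_eq_mul_inv]
      refine (hu.reg v hv).mul v ?_
      rw [reg_iff_ord, v.ord_inv, ht.ord_eq_zero hv hvv]
      simp

/-- **Taylor expansion** with coefficients in `R'` (iterate `step`: `s_0 = s`, `a_n = s_n(v₀)`, `s_{n+1} = (s_n - a_n)/t`). -/
theorem GoodOn.expand (hs : GoodOn hG G (rP hG v₀) s) (ht : IsParam hG G t v₀) (hI : Iner V y G) :
    ∃ a : ℕ → K, (∀ n, a n ∈ fixR A (βG G)) ∧ ∀ N : ℕ, ∃ sN : F, GoodOn hG G (rP hG v₀) sN ∧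
      s = ∑ n ∈ Finset.range N, algebraMap K F (a n) * t ^ n + t ^ N * sN := by
  have ht0 : t ≠ 0 := ht.ne_zero
  let S : ℕ → {s' : F // GoodOn hG G (rP hG v₀) s'} := fun n =>
    Nat.rec ⟨s, hs⟩ (fun _ p => ⟨(p.1 - algebraMap K F (val v₀ p.1)) / t, p.2.step ht hI⟩) n
  have hS0 : (S 0).1 = s := rfl
  have hSs : ∀ n, (S (n + 1)).1 = ((S n).1 - algebraMap K F (val v₀ (S n).1)) / t := fun _ => rfl
  refine ⟨fun n => val v₀ (S n).1, fun n => (S n).2.val_mem_fixR rfl (ht.fixP hI), fun N =>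
    ⟨(S N).1, (S N).2, ?_⟩⟩
  induction N with
  | zero => rw [Finset.range_zero, Finset.sum_empty, pow_zero, one_mul, zero_add, hS0]
  | succ N ih =>
    rw [Finset.sum_range_succ, hSs]
    have h1 : t ^ (N + 1) * (((S N).1 - algebraMap K F (val v₀ (S N).1)) / t) =
        t ^ N * ((S N).1 - algebraMap K F (val v₀ (S N).1)) := by
      rw [pow_succ]
      field_simp
    rw [h1]
    calc s = ∑ n ∈ Finset.range N, algebraMap K F (val v₀ (S n).1) * t ^ n + t ^ N * (S N).1 := ih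
      _ = _ := by ring

/-- the expansion, evaluated on the disc. -/
theorem GoodOn.val_expand (hs : GoodOn hG G (rP hG v₀) s) (ht : IsParam hG G t v₀)
    (hI : Iner V y G) :
    ∃ a : ℕ → K, (∀ n, a n ∈ fixR A (βG G)) ∧ ∀ (N : ℕ) (v : Place K F), rP hG v = rP hG v₀ →
      ∃ b ∈ A, val v s = ∑ n ∈ Finset.range N, a n * val v t ^ n + val v t ^ N * b := by
  obtain ⟨a, ha, h⟩ := hs.expand ht hI
  refine ⟨a, ha, fun N v hv => ?_⟩
  obtain ⟨sN, hsN, hs'⟩ := h N
  have htr : Reg v t := ht.reg v hv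
  have h1 : ∀ n ∈ Finset.range N, Reg v (algebraMap K F (a n) * t ^ n) := fun n _ =>
    (reg_algebraMap v (a n)).mul v (htr.pow v n)
  refine ⟨val v sN, hsN.val_mem hv, ?_⟩
  conv_lhs => rw [hs']
  rw [val_add v (reg_sum v _ _ h1) ((htr.pow v N).mul v (hsN.reg v hv)), val_sum v _ _ h1,
    val_mul v (htr.pow v N) (hsN.reg v hv), val_pow v htr]
  congr 1
  refine Finset.sum_congr rfl fun n _ => ?_
  rw [val_mul v (reg_algebraMap v (a n)) (htr.pow v n), val_algebraMap, val_pow v htr]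

/-- evaluation of an invariant function along an equivariant family of places is equivariant (`val_smul`). -/
theorem Inv.equi_val {W : Type*} [MulAction G W] (hs : Inv G s) (Y : W → Place K F)
    (hYe : ∀ (σ : G) w, Y (σ • w) = (σ : SemilinearAut K F) • Y w) :
    Equi (βG G) (fun w => val (Y w) s) := by
  intro σ w
  have h := val_smul (Y w) (σ : SemilinearAut K F) s
  rw [hs σ σ.2] at h
  show val (Y (σ • w)) s = _
  rw [hYe, h]; rfl

/-- **(E6)** `w ↦ s(Y w)` is polynomial as soon as `w ↦ t(Y w)` is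
(`val_expand`, `Base.exists_pow_eq` for `τ = t(Y ·)`, `isPoly_of_approx`). -/
theorem GoodOn.isPoly_val [CharZero K] {ϖ : K} (hs : GoodOn hG G (rP hG v₀) s)
    (ht : IsParam hG G t v₀) (hI : Iner V y G) (hB : Base A (βG G) ϖ)
    {ι W : Type*} [Finite ι] [Finite W] [MulAction G W] {T : ι → W → K}
    (hTe : ∀ a, Equi (βG G) (T a)) (hTA : ∀ a w, T a w ∈ A)
    (hsep : ∀ w w', (∀ a, T a w = T a w') → w = w')
    (Y : W → Place K F) (hYd : ∀ w, rP hG (Y w) = rP hG v₀)
    (hYe : ∀ (σ : G) w, Y (σ • w) = (σ : SemilinearAut K F) • Y w)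
    (hT : IsPoly (fixR A (βG G)) T (fun w => val (Y w) t)) :
    IsPoly (fixR A (βG G)) T (fun w => val (Y w) s) := by
  obtain ⟨a, ha, h⟩ := hs.val_expand ht hI
  refine isPoly_of_approx hB hTe hTA hsep (hs.inv.equi_val Y hYe) fun M => ?_
  obtain ⟨N, hN⟩ := hB.exists_pow_eq (fun w => val (Y w) t) (fun w => ht.val_mem (hYd w)) M
  refine ⟨fun w => ∑ n ∈ Finset.range N, a n * val (Y w) t ^ n,
    isPoly_sum _ _ fun n _ => (isPoly_const (ha n)).mul (hT.pow n), fun w => ?_⟩
  obtain ⟨b, hb, hbw⟩ := h N (Y w) (hYd w)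
  obtain ⟨b', hb', hbw'⟩ := hN N le_rfl w
  refine ⟨b' * b, A.mul_mem _ _ hb' hb, ?_⟩
  rw [hbw, add_sub_cancel_left, hbw', mul_assoc]

end Fermat.Agent.S19.RL
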