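import Fermat.Agent.S19.RL.Poly

/-!
# S19 / RL / Solve : linear systems with polynomial coefficients, unimodular modulo `m_A`  (Mathlib only)
-/

set_option autoImplicit false

namespace Fermat.Agent.S19.RL

open MvPolynomial

variable {K : Type*} [Field K] {A : ValuationSubring K}

theorem Solve_mem_of_sub {n : Type*} [DecidableEq n] (M : Matrix n n K)
    (hM : ∀ i j, M i j - (if i = j then 1 else 0) ∈ A.nonunits) (i j : n) : M i j ∈ A := by
  have h1 := Poly_nonunits_mem (hM i j)
  have h2 : (if i = j then (1 : K) else 0) ∈ A := by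
    split_ifs
    · exact A.one_mem
    · exact A.zero_mem
  have := A.add_mem _ _ h1 h2
  rwa [sub_add_cancel] at this

/-- a square matrix over `K` which is congruent to the identity modulo `m_A` has determinant `≡ 1`.
(The entries lie in `A`; view `M` as a matrix over `A`, apply `RingHom.map_det` for `IsLocalRing.residue A`.) -/
theorem det_sub_one_mem_nonunits {n : Type*} [Fintype n] [DecidableEq n] (M : Matrix n n K)
    (hM : ∀ i j, M i j - (if i = j then 1 else 0) ∈ A.nonunits) : M.det - 1 ∈ A.nonunits := by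
  have hMA := Solve_mem_of_sub M hM
  let M' : Matrix n n A := fun i j => ⟨M i j, hMA i j⟩
  have hMM' : M = A.subtype.mapMatrix M' := by
    ext i j; rfl
  have hres : (IsLocalRing.residue A).mapMatrix M' = 1 := by
    ext i j
    rw [RingHom.mapMatrix_apply, Matrix.map_apply, Matrix.one_apply]
    have h1 : M' i j - (if i = j then 1 else 0) ∈ IsLocalRing.maximalIdeal A := by
      obtain ⟨ha, hm⟩ := ValuationSubring.mem_nonunits_iff_exists_mem_maximalIdeal.1 (hM i j)
      convert hm using 1
      apply Subtype.ext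
      split_ifs <;> simp [M']
    have h2 := (IsLocalRing.residue_eq_zero_iff _).2 h1
    rw [map_sub, sub_eq_zero] at h2
    rw [h2]
    split_ifs <;> simp
  have hdet : IsLocalRing.residue A (M'.det - 1) = 0 := by
    rw [map_sub, RingHom.map_det, hres, Matrix.det_one, map_one, sub_self]
  have hmem := (IsLocalRing.residue_eq_zero_iff _).1 hdet
  rw [ValuationSubring.mem_nonunits_iff_exists_mem_maximalIdeal]
  have hd : M.det = (M'.det : K) := by
    rw [hMM', ← RingHom.map_det]; rfl
  refine ⟨?_, ?_⟩
  · rw [hd]; exact (M'.det - 1).2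
  · convert hmem using 1
    apply Subtype.ext
    simp [hd]

/-- the entries of the adjugate of a matrix with entries in `A` lie in `A`. -/
theorem adjugate_mem {n : Type*} [Fintype n] [DecidableEq n] (M : Matrix n n K)
    (hM : ∀ i j, M i j ∈ A) (i j : n) : M.adjugate i j ∈ A := by
  let M' : Matrix n n A := fun i j => ⟨M i j, hM i j⟩
  have hMM' : M = A.subtype.mapMatrix M' := by
    ext i j; rfl
  rw [hMM', ← RingHom.map_adjugate]
  exact (M'.adjugate i j).2

variable {Γ : Type*} [Group Γ] {β : Γ →* RingAut K} {ϖ : K}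
variable {ι W : Type*} [MulAction Γ W] {T : ι → W → K}

theorem Solve_sum_mem_nonunits {J : Type*} (s : Finset J) (f : J → K)
    (h : ∀ j ∈ s, f j ∈ A.nonunits) : ∑ j ∈ s, f j ∈ A.nonunits := by
  classical
  induction s using Finset.induction_on with
  | empty => rw [Finset.sum_empty]; exact Poly_nonunits_zero
  | insert a s ha ih =>
    rw [Finset.sum_insert ha]
    exact Poly_nonunits_add (h a (Finset.mem_insert_self a s))
      (ih fun j hj => h j (Finset.mem_insert_of_mem hj))

/-- **(P5)** solve `u + M c = 0` with `c` polynomial and `m_A`-valued: `c = - (det M)⁻¹ adj(M) u`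
(`isPoly_det`, `isPoly_adjugate`, `IsPoly.inv`, `det_sub_one_mem_nonunits`, `Matrix.mul_adjugate`). -/
theorem exists_solve [CharZero K] (hB : Base A β ϖ) [Finite W] [Finite ι]
    (hTe : ∀ a, Equi β (T a)) (hTm : ∀ a w, T a w ∈ A.nonunits)
    (hsep : ∀ w w', (∀ a, T a w = T a w') → w = w')
    {n : Type*} [Fintype n] [DecidableEq n] (M : W → Matrix n n K)
    (hM : ∀ i j, IsPoly (fixR A β) T (fun w => M w i j))
    (hM1 : ∀ w i j, M w i j - (if i = j then 1 else 0) ∈ A.nonunits)
    (u : n → W → K) (hu : ∀ i, IsPoly (fixR A β) T (u i)) (hum : ∀ i w, u i w ∈ A.nonunits) :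
    ∃ c : n → W → K, (∀ j, IsPoly (fixR A β) T (c j)) ∧ (∀ j w, c j w ∈ A.nonunits) ∧
      ∀ i w, u i w + ∑ j, M w i j * c j w = 0 := by
  have hMA : ∀ w i j, M w i j ∈ A := fun w => Solve_mem_of_sub (M w) (hM1 w)
  have hdetP : IsPoly (fixR A β) T (fun w => (M w).det) := isPoly_det M hM
  have hdetu : ∀ w, (M w).det ∉ A.nonunits := by
    intro w hw
    have h1 := det_sub_one_mem_nonunits (M w) (hM1 w)
    have h2 : (-1 : K) * ((M w).det - 1) ∈ A.nonunits :=
      Poly_nonunits_mul (A.neg_mem _ A.one_mem) h1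
    have h3 := Poly_nonunits_add hw h2
    have h4 : (M w).det + -1 * ((M w).det - 1) = 1 := by ring
    rw [h4, ValuationSubring.mem_nonunits_iff, map_one] at h3
    exact lt_irrefl _ h3
  have hdetA : ∀ w, (M w).det ∈ A := by
    intro w
    have h1 := Poly_nonunits_mem (det_sub_one_mem_nonunits (M w) (hM1 w))
    have := A.add_mem _ _ h1 A.one_mem
    rwa [sub_add_cancel] at this
  have hdet0 : ∀ w, (M w).det ≠ 0 := by
    intro w h0
    apply hdetu w
    rw [h0]; exact Poly_nonunits_zero
  have hinvP := IsPoly.inv hB hTe hTm hsep hdetP hdetu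
  refine ⟨fun j w => - ((M w).det)⁻¹ * ∑ i, (M w).adjugate j i * u i w, fun j => ?_, fun j w => ?_,
    fun i w => ?_⟩
  · exact hinvP.neg.mul (isPoly_sum Finset.univ (fun i w => (M w).adjugate j i * u i w)
      (fun i _ => (isPoly_adjugate M hM j i).mul (hu i)))
  · refine Poly_nonunits_mul (A.neg_mem _ (Poly_unit_inv_mem (hdetA w) (hdetu w))) ?_
    exact Solve_sum_mem_nonunits _ _ fun i _ =>
      Poly_nonunits_mul (adjugate_mem (M w) (hMA w) j i) (hum i w)
  · have h1 : ∑ j, M w i j * (- ((M w).det)⁻¹ * ∑ k, (M w).adjugate j k * u k w)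
        = - ((M w).det)⁻¹ * ((M w * (M w).adjugate).mulVec (fun k => u k w)) i := by
      rw [← Matrix.mulVec_mulVec]
      simp only [Matrix.mulVec, dotProduct, Finset.mul_sum]
      refine Finset.sum_congr rfl fun j _ => ?_
      refine Finset.sum_congr rfl fun k _ => ?_
      ring
    rw [h1, Matrix.mul_adjugate, Matrix.smul_mulVec, Matrix.one_mulVec, Pi.smul_apply, smul_eq_mul]
    field_simp [hdet0 w]
    ring

end Fermat.Agent.S19.RL
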