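import Fermat.Agent.S19.Geo0.Rat
import Fermat.Agent.S19.RL.Param
import Fermat.Agent.S19.RL.Solve

/-!
# S19 / RL / Residual : the residual divisor lemma (RL)

`X : Frame hG G ι κ` : `G`-fixed places `y0 a` (`a : ι`), `z0 l` (`l : κ`) with pairwise distinct reductions, with invariant parameters `ty a`, `tz l`.
`Y0 = ∑ y0 a`, `Z0 = ∑ z0 l`; assume `#κ = g` and `ℓ(rD Z0) = 1`.

**(RL)** For moving points `Y a w` in the disc of `y0 a` (`w` in a finite `G`-set `W`, equivariantly) there are points `Z l w` in the disc of `z0 l`, equivariant, with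
`∑ Y a w + ∑ Z l w ~ Y0 + Z0`, and the coordinates `tz l (Z l w)` are polynomials over `R'` in the coordinates `ty a (Y a w)`.

Proof.  `s a ∈ L(Z0 + y0 a) ∩ O ∩ F^G` with `(ty a * s a)‾(rP (y0 a)) = 1` (`exists_adapted`, from LIFT over `K^G`).  `S c = 1 + ∑ c_a s_a`.  The conditions `(ty b * S c)(Y b w) = 0`
are the linear system `T_b(w) + ∑_a M_{ba}(w) c_a = 0`, `M_{ba}(w) = (ty b * s a)(Y b w)`, `M ≡ 1 mod m_A`, with polynomial coefficients (`GoodOn.isPoly_val`): `exists_solve`.
`S (c w)` reduces to `1`; on each disc of the frame `t * S` is regular and reduces to a uniformiser: exactly one simple zero.  This gives `div (S (c w)) = Y(w) + Z(w) - Y0 - Z0`.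
Finally `tz l * S (c w)` vanishes at `Z l w`; expanding `tz l * s a` in powers of `tz l` gives the implicit equation for `τ = tz l (Z l w)`: `isPoly_of_implicit`.
-/

set_option autoImplicit false
set_option linter.unusedSectionVars false

namespace Fermat.Agent.S19.RL

open AlgebraicCurve Fermat.Agent.S26 Fermat.Agent.S37.Red Fermat.Agent.S19.Geo0

section FF

variable {Ω 𝕃 : Type*} [Field Ω] [Field 𝕃] [Algebra Ω 𝕃] [IsAlgClosed Ω] [FF1 Ω 𝕃]

/-- (R1a) a function with a simple pole at `Q`, normalised.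
`ℓ(E + Q) = 2` (`Geo0.finrank_add_sumDiv`, `T = {Q}`) `> ℓ(E)`: take `st ∈ L(E + Q) \ L(E)`; `ord_Q st = -1`, so `tt * st` is a unit at `Q`; divide by its value. -/
theorem exists_pole_fn {g : ℕ} (hg : IsGenus Ω 𝕃 g) {E : Divisor Ω 𝕃}
    (hE : Divisor.degree E = g) (h1 : Module.finrank Ω (LSpace E) = 1) {Q : Place Ω 𝕃}
    (hQ : E Q = 0) {tt : 𝕃} (htt : Q.ord tt = 1) :
    ∃ st ∈ LSpace (E + Finsupp.single Q 1), val Q (tt * st) = 1 := by
  classical
  have h2 : 2 ≤ Module.finrank Ω (LSpace (E + Finsupp.single Q 1)) := by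
    have h3 := hg.1 (E + Finsupp.single Q 1)
    rw [map_add, Divisor.degree_single, deg_eq_one_of_isAlgClosed, hE] at h3
    push_cast at h3
    omega
  have hle : LSpace E ≤ LSpace (E + Finsupp.single Q 1) := by
    refine LSpace_mono fun v => ?_
    rw [Finsupp.add_apply, Finsupp.single_apply]
    split_ifs <;> omega
  obtain ⟨st, hst, hstE⟩ : ∃ st ∈ LSpace (E + Finsupp.single Q 1), st ∉ LSpace E := by
    by_contra hcon
    push Not at hcon
    have heq : LSpace (E + Finsupp.single Q 1) = LSpace E := le_antisymm hcon hle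
    rw [heq, h1] at h2
    omega
  have hst0 : st ≠ 0 := by
    rintro rfl
    exact hstE (zero_mem _)
  have hord := (mem_LSpace.1 hst).resolve_left hst0
  have hQ1 : Q.ord st = -1 := by
    have h3 := hord Q
    rw [Finsupp.add_apply, Finsupp.single_eq_same, hQ] at h3
    by_contra hne
    apply hstE
    refine mem_LSpace.2 (Or.inr fun v => ?_)
    by_cases hv : v = Q
    · subst hv
      rw [hQ]
      omega
    · have h4 := hord v
      rwa [Finsupp.add_apply, Finsupp.single_apply, if_neg (Ne.symm hv), add_zero] at h4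
  have htt0 : tt ≠ 0 := by
    rintro rfl
    simp at htt
  have h0 : Q.ord (tt * st) = 0 := by
    rw [Q.ord_mul htt0 hst0, htt, hQ1]
    norm_num
  have hreg : Reg Q (tt * st) := (reg_iff_ord Q).2 h0.ge
  have hc : val Q (tt * st) ≠ 0 :=
    cenA_val_ne_zero_of_ord_eq_zero (mul_ne_zero htt0 hst0) h0
  refine ⟨(val Q (tt * st))⁻¹ • st, Submodule.smul_mem _ _ hst, ?_⟩
  rw [Algebra.smul_def, mul_left_comm, val_mul Q (reg_algebraMap Q _) hreg, val_algebraMap,
    inv_mul_cancel₀ hc]

end FF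

variable {K k : Type*} [Field K] [Field k] {A : ValuationSubring K} {π : A →+* k}
variable {F Ft : Type*} [Field F] [Field Ft] [Algebra K F] [Algebra k Ft]
variable [IsAlgClosed K] [FF1 K F] [IsAlgClosed k] [FF1 k Ft]
variable {V : VFF A π F Ft} {y : F} {yt : Ft}

/-- A frame: fixed places with pairwise distinct reductions and invariant parameters. -/
structure Frame (hG : Good V y yt) (G : Subgroup (SemilinearAut K F)) (ι κ : Type*) where
  y0 : ι → Place K F
  ty : ι → F
  z0 : κ → Place K F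
  tz : κ → F
  hy : ∀ a, IsParam hG G (ty a) (y0 a)
  hz : ∀ l, IsParam hG G (tz l) (z0 l)
  inj : Function.Injective (Sum.elim (fun a => rP hG (y0 a)) (fun l => rP hG (z0 l)))

variable {hG : Good V y yt} {G : Subgroup (SemilinearAut K F)}
variable {ι κ : Type*} [Fintype ι] [Fintype κ]

/-- `∑ y0 a`. -/
noncomputable def Frame.Y0 (X : Frame hG G ι κ) : Divisor K F := ∑ a, Finsupp.single (X.y0 a) (1 : ℤ)

/-- `∑ z0 l`. -/
noncomputable def Frame.Z0 (X : Frame hG G ι κ) : Divisor K F := ∑ l, Finsupp.single (X.z0 l) (1 : ℤ)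

/-- the functions `s a`. -/
structure Frame.Adapted (X : Frame hG G ι κ) (s : ι → F) : Prop where
  inv : ∀ a, Inv G (s a)
  mem : ∀ a, s a ∈ V.O
  mem_L : ∀ a, s a ∈ LSpace (X.Z0 + Finsupp.single (X.y0 a) 1)
  res : ∀ a v, rP hG v = rP hG (X.y0 a) → res π (val v (X.ty a * s a)) = 1

/-- `S c = 1 + ∑ c_a s_a`. -/
noncomputable def Ssum (s : ι → F) (c : ι → K) : F := 1 + ∑ a, algebraMap K F (c a) * s a

/-! ### divisors of the frame -/

theorem Frame.Z0_apply_eq_zero (X : Frame hG G ι κ) {v : Place K F} (h : ∀ l, v ≠ X.z0 l) :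
    X.Z0 v = 0 := by
  classical
  rw [Frame.Z0, Finsupp.finset_sum_apply]
  exact Finset.sum_eq_zero fun l _ => by rw [Finsupp.single_apply, if_neg (h l).symm]

theorem Frame.Z0_apply_z0 (X : Frame hG G ι κ) (l : κ) : X.Z0 (X.z0 l) = 1 := by
  classical
  rw [Frame.Z0, Finsupp.finset_sum_apply, Finset.sum_eq_single l]
  · exact Finsupp.single_eq_same
  · intro l' _ hne
    rw [Finsupp.single_apply, if_neg]
    intro h
    have h1 : Sum.elim (fun a => rP hG (X.y0 a)) (fun l => rP hG (X.z0 l)) (Sum.inr l') =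
        Sum.elim (fun a => rP hG (X.y0 a)) (fun l => rP hG (X.z0 l)) (Sum.inr l) := by
      simp only [Sum.elim_inr, h]
    exact hne (Sum.inr.inj (X.inj h1))
  · intro h
    exact absurd (Finset.mem_univ l) h

theorem Frame.degree_Z0 (X : Frame hG G ι κ) : Divisor.degree X.Z0 = Fintype.card κ := by
  rw [Frame.Z0, map_sum]
  simp only [Divisor.degree_single, deg_eq_one_of_isAlgClosed, Nat.cast_one, mul_one,
    Finset.sum_const, Finset.card_univ, nsmul_eq_mul]

theorem Frame.rD_Z0 (X : Frame hG G ι κ) :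
    rD hG X.Z0 = ∑ l, Finsupp.single (rP hG (X.z0 l)) (1 : ℤ) := by
  rw [Frame.Z0, map_sum]
  exact Finset.sum_congr rfl fun l _ => rD_single hG _ _

theorem Frame.smul_Z0 (X : Frame hG G ι κ) (hI : Iner V y G) {σ : SemilinearAut K F} (hσ : σ ∈ G) :
    σ • X.Z0 = X.Z0 := by
  rw [Frame.Z0, Finset.smul_sum]
  refine Finset.sum_congr rfl fun l _ => ?_
  rw [SemilinearAut.smul_single, (X.hz l).fixP hI σ hσ]

/-- a place of the disc of `y0 b` is none of the `z0 l`, and is `y0 a` only if `a = b` and it is `y0 b`. -/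
theorem Frame.ne_z0_of_disc_y (X : Frame hG G ι κ) {b : ι} {v : Place K F}
    (hv : rP hG v = rP hG (X.y0 b)) (l : κ) : v ≠ X.z0 l := by
  rintro rfl
  have h1 : Sum.elim (fun a => rP hG (X.y0 a)) (fun l => rP hG (X.z0 l)) (Sum.inr l) =
      Sum.elim (fun a => rP hG (X.y0 a)) (fun l => rP hG (X.z0 l)) (Sum.inl b) := hv
  exact Sum.inr_ne_inl (X.inj h1)

theorem Frame.ne_y0_of_disc_y (X : Frame hG G ι κ) {a b : ι} (hab : a ≠ b) {v : Place K F}
    (hv : rP hG v = rP hG (X.y0 b)) : v ≠ X.y0 a := by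
  rintro rfl
  have h1 : Sum.elim (fun a => rP hG (X.y0 a)) (fun l => rP hG (X.z0 l)) (Sum.inl a) =
      Sum.elim (fun a => rP hG (X.y0 a)) (fun l => rP hG (X.z0 l)) (Sum.inl b) := hv
  exact hab (Sum.inl.inj (X.inj h1))

theorem Frame.ne_y0_of_disc_z (X : Frame hG G ι κ) {l : κ} {v : Place K F}
    (hv : rP hG v = rP hG (X.z0 l)) (a : ι) : v ≠ X.y0 a := by
  rintro rfl
  have h1 : Sum.elim (fun a => rP hG (X.y0 a)) (fun l => rP hG (X.z0 l)) (Sum.inl a) =
      Sum.elim (fun a => rP hG (X.y0 a)) (fun l => rP hG (X.z0 l)) (Sum.inr l) := hv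
  exact Sum.inl_ne_inr (X.inj h1)

theorem Frame.ne_z0_of_disc_z (X : Frame hG G ι κ) {l l' : κ} (hll : l' ≠ l) {v : Place K F}
    (hv : rP hG v = rP hG (X.z0 l)) : v ≠ X.z0 l' := by
  rintro rfl
  have h1 : Sum.elim (fun a => rP hG (X.y0 a)) (fun l => rP hG (X.z0 l)) (Sum.inr l') =
      Sum.elim (fun a => rP hG (X.y0 a)) (fun l => rP hG (X.z0 l)) (Sum.inr l) := hv
  exact hll (Sum.inr.inj (X.inj h1))

/-! ### regularity -/

/-- if `s ∈ L(D) ∩ O ∩ F^G` and on the disc of `v₀` the divisor `D` is `≤ v₀`, then `t * s` is good on the disc. -/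
theorem goodOn_mul_of_mem_LSpace {t s : F} {v₀ : Place K F} (ht : IsParam hG G t v₀)
    {D : Divisor K F} (hs : s ∈ LSpace D) (hinv : Inv G s) (hO : s ∈ V.O) (h0 : D v₀ ≤ 1)
    (h1 : ∀ v, rP hG v = rP hG v₀ → v ≠ v₀ → D v ≤ 0) : GoodOn hG G (rP hG v₀) (t * s) := by
  refine ⟨ht.inv.mul hinv, V.O.mul_mem _ _ ht.mem_O hO, fun v hv => ?_⟩
  by_cases hvv : v = v₀
  · subst hvv
    by_cases hs0 : s = 0
    · rw [hs0, mul_zero]
      exact reg_zero v
    · have h2 := (hs.resolve_left hs0) v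
      rw [reg_iff_ord, v.ord_mul ht.ne_zero hs0, ht.ord_eq_one]
      omega
  · exact (ht.reg v hv).mul v (reg_of_mem_LSpace hs (h1 v hv hvv))

/-- if `D ≤ 0` on the disc of `Q` then `s` itself is good. -/
theorem goodOn_of_mem_LSpace {s : F} {Q : Place k Ft} {D : Divisor K F} (hs : s ∈ LSpace D)
    (hinv : Inv G s) (hO : s ∈ V.O) (h1 : ∀ v, rP hG v = Q → D v ≤ 0) : GoodOn hG G Q s :=
  ⟨hinv, hO, fun v hv => reg_of_mem_LSpace hs (h1 v hv)⟩

variable {X : Frame hG G ι κ} {s : ι → F}

theorem Frame.Adapted.goodOn_y (hs : X.Adapted s) (a b : ι) :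
    GoodOn hG G (rP hG (X.y0 b)) (X.ty b * s a) := by
  classical
  refine goodOn_mul_of_mem_LSpace (X.hy b) (hs.mem_L a) (hs.inv a) (hs.mem a) ?_ ?_
  · rw [Finsupp.add_apply, X.Z0_apply_eq_zero (fun l => X.ne_z0_of_disc_y rfl l), zero_add,
      Finsupp.single_apply]
    split_ifs <;> norm_num
  · intro v hv hne
    rw [Finsupp.add_apply, X.Z0_apply_eq_zero (fun l => X.ne_z0_of_disc_y hv l), zero_add,
      Finsupp.single_apply, if_neg]
    intro h
    by_cases hab : a = b
    · exact hne (by rw [← h, hab])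
    · exact X.ne_y0_of_disc_y hab hv h.symm

theorem Frame.Adapted.goodOn_y_ne (hs : X.Adapted s) {a b : ι} (hab : a ≠ b) :
    GoodOn hG G (rP hG (X.y0 b)) (s a) := by
  classical
  refine goodOn_of_mem_LSpace (hs.mem_L a) (hs.inv a) (hs.mem a) fun v hv => ?_
  rw [Finsupp.add_apply, X.Z0_apply_eq_zero (fun l => X.ne_z0_of_disc_y hv l), zero_add,
    Finsupp.single_apply, if_neg]
  exact fun h => X.ne_y0_of_disc_y hab hv h.symm

theorem Frame.Adapted.goodOn_z (hs : X.Adapted s) (a : ι) (l : κ) :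
    GoodOn hG G (rP hG (X.z0 l)) (X.tz l * s a) := by
  classical
  refine goodOn_mul_of_mem_LSpace (X.hz l) (hs.mem_L a) (hs.inv a) (hs.mem a) ?_ ?_
  · rw [Finsupp.add_apply, X.Z0_apply_z0, Finsupp.single_apply, if_neg, add_zero]
    exact fun h => X.ne_y0_of_disc_z rfl a h.symm
  · intro v hv hne
    have h1 : ∀ l', v ≠ X.z0 l' := by
      intro l'
      by_cases hll : l' = l
      · rw [hll]; exact hne
      · exact X.ne_z0_of_disc_z hll hv
    rw [Finsupp.add_apply, X.Z0_apply_eq_zero h1, zero_add, Finsupp.single_apply, if_neg]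
    exact fun h => X.ne_y0_of_disc_z hv a h.symm

theorem Frame.Adapted.reg_other (hs : X.Adapted s) (a : ι) {v : Place K F}
    (hy : ∀ b, rP hG v ≠ rP hG (X.y0 b)) (hz : ∀ l, rP hG v ≠ rP hG (X.z0 l)) : Reg v (s a) := by
  classical
  refine reg_of_mem_LSpace (hs.mem_L a) ?_
  rw [Finsupp.add_apply, X.Z0_apply_eq_zero (fun l h => hz l (by rw [h])), zero_add,
    Finsupp.single_apply, if_neg]
  exact fun h => hy a (by rw [h])

/-- the matrix `M` is congruent to the identity. -/
theorem Frame.Adapted.val_sub_mem [DecidableEq ι] (hs : X.Adapted s) (a b : ι) {v : Place K F}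
    (hv : rP hG v = rP hG (X.y0 b)) :
    val v (X.ty b * s a) - (if b = a then 1 else 0) ∈ A.nonunits := by
  have hπ := V.π_surjective
  split_ifs with hba
  · subst hba
    rw [← res_eq_res_iff hπ ((hs.goodOn_y b b).val_mem hv) A.one_mem, hs.res b v hv, res_one]
  · have hg := hs.goodOn_y_ne (a := a) (b := b) (fun h => hba h.symm)
    have h1 : val v (X.ty b) ∈ A.nonunits := (X.hy b).val_mem hv
    have h2 : val v (s a) ∈ A := hg.val_mem hv
    rw [sub_zero, val_mul v ((X.hy b).reg v hv) (hg.reg v hv),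
      ← res_eq_zero_iff hπ (A.mul_mem _ _ (mem_of_mem_nonunits h1) h2),
      res_mul (mem_of_mem_nonunits h1) h2, (res_eq_zero_iff hπ (mem_of_mem_nonunits h1)).2 h1,
      zero_mul]

/-! ### the function `S c` -/

theorem Res_mul_Ssum (t : F) (s : ι → F) (c : ι → K) :
    t * Ssum s c = t + ∑ a, algebraMap K F (c a) * (t * s a) := by
  unfold Ssum
  rw [mul_add, mul_one, Finset.mul_sum]
  congr 1
  refine Finset.sum_congr rfl fun a _ => ?_
  ring

theorem Res_reg_mul_Ssum {v : Place K F} {t : F} {s : ι → F} (ht : Reg v t)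
    (h : ∀ a, Reg v (t * s a)) (c : ι → K) : Reg v (t * Ssum s c) := by
  rw [Res_mul_Ssum]
  exact Reg.add v ht (reg_sum v _ _ fun a _ => Reg.mul v (reg_algebraMap v _) (h a))

theorem Res_val_mul_Ssum {v : Place K F} {t : F} {s : ι → F} (ht : Reg v t)
    (h : ∀ a, Reg v (t * s a)) (c : ι → K) :
    val v (t * Ssum s c) = val v t + ∑ a, c a * val v (t * s a) := by
  rw [Res_mul_Ssum, val_add v ht (reg_sum v _ _ fun a _ => Reg.mul v (reg_algebraMap v _) (h a)),
    val_sum v _ _ fun a _ => Reg.mul v (reg_algebraMap v _) (h a)]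
  congr 1
  refine Finset.sum_congr rfl fun a _ => ?_
  rw [val_mul v (reg_algebraMap v _) (h a), val_algebraMap]

theorem Frame.Adapted.red_Ssum (hs : X.Adapted s) {c : ι → K} (hc : ∀ a, c a ∈ A.nonunits) :
    V.Red (Ssum s c) 1 := by
  have h1 : ∀ a ∈ (Finset.univ : Finset ι), V.Red (algebraMap K F (c a) * s a) 0 := by
    intro a _
    obtain ⟨st, hst⟩ := V.exists_red (hs.mem a)
    have hcA : c a ∈ A := A.nonunits_subset (hc a)
    have h2 := (V.red_const hcA).mul hst
    rwa [(res_eq_zero_iff V.π_surjective hcA).2 (hc a), map_zero, zero_mul] at h2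
  have h3 := V.red_one.add (V.red_sum _ _ _ h1)
  rwa [Finset.sum_const_zero, add_zero] at h3

theorem Frame.Adapted.smul_Ssum (hs : X.Adapted s) (c : ι → K) {σ : SemilinearAut K F}
    (hσ : σ ∈ G) : σ • Ssum s c = Ssum s (fun a => SemilinearAut.baseAut σ (c a)) := by
  unfold Ssum
  rw [smul_add, smul_one, Finset.smul_sum]
  congr 1
  refine Finset.sum_congr rfl fun a _ => ?_
  rw [smul_mul', SemilinearAut.smul_algebraMap, hs.inv a σ hσ]

theorem Frame.Adapted.reg_y (hs : X.Adapted s) (c : ι → K) (b : ι) {v : Place K F}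
    (hv : rP hG v = rP hG (X.y0 b)) : Reg v (X.ty b * Ssum s c) := by
  exact Res_reg_mul_Ssum ((X.hy b).reg v hv) (fun a => (hs.goodOn_y a b).reg v hv) c

theorem Frame.Adapted.val_y (hs : X.Adapted s) (c : ι → K) (b : ι) {v : Place K F}
    (hv : rP hG v = rP hG (X.y0 b)) :
    val v (X.ty b * Ssum s c) = val v (X.ty b) + ∑ a, c a * val v (X.ty b * s a) := by
  exact Res_val_mul_Ssum ((X.hy b).reg v hv) (fun a => (hs.goodOn_y a b).reg v hv) c

theorem Frame.Adapted.reg_z (hs : X.Adapted s) (c : ι → K) (l : κ) {v : Place K F}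
    (hv : rP hG v = rP hG (X.z0 l)) : Reg v (X.tz l * Ssum s c) := by
  exact Res_reg_mul_Ssum ((X.hz l).reg v hv) (fun a => (hs.goodOn_z a l).reg v hv) c

theorem Frame.Adapted.val_z (hs : X.Adapted s) (c : ι → K) (l : κ) {v : Place K F}
    (hv : rP hG v = rP hG (X.z0 l)) :
    val v (X.tz l * Ssum s c) = val v (X.tz l) + ∑ a, c a * val v (X.tz l * s a) := by
  exact Res_val_mul_Ssum ((X.hz l).reg v hv) (fun a => (hs.goodOn_z a l).reg v hv) c

open Classical in
/-- **(G1)** `S` reduces to `1` and `t * S` is regular on the disc of `v₀`: then `t * S` has exactly one zero `P` on the disc and `ord_v S = [v = P] - [v = v₀]` there.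
(`V.Red (t * S) tt`, `exists_zero_of_red`; `ord_v S = ord_v (t * S) - ord_v t`, `IsParam.ord_eq_one`, `IsParam.ord_eq_zero`.) -/
theorem exists_zero_mul {t S : F} {v₀ : Place K F} (ht : IsParam hG G t v₀) (hS : V.Red S 1)
    (hreg : ∀ v, rP hG v = rP hG v₀ → Reg v (t * S)) :
    ∃ P : Place K F, rP hG P = rP hG v₀ ∧ val P (t * S) = 0 ∧
      (∀ P', rP hG P' = rP hG v₀ → val P' (t * S) = 0 → P' = P) ∧
      ∀ v, rP hG v = rP hG v₀ → v.ord S = (if v = P then 1 else 0) - (if v = v₀ then 1 else 0) := by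
  obtain ⟨tt, htt, hord⟩ := ht.red
  have hred : V.Red (t * S) tt := by simpa using htt.mul hS
  obtain ⟨P, hP, hP1, hP0⟩ := exists_zero_of_red hG hred hreg hord
  have hS0 : S ≠ 0 := hS.ne_zero one_ne_zero
  have ht0 : t ≠ 0 := ht.ne_zero
  have htS : t * S ≠ 0 := mul_ne_zero ht0 hS0
  refine ⟨P, hP, ?_, ?_, ?_⟩
  · exact val_eq_zero_of_van _ (van_of_ord_pos _ (by rw [hP1]; exact one_pos))
  · intro P' hP' h0
    by_contra hne
    have h1 := hP0 P' hP' hne
    have h2 : Van P' (t * S) := (val_eq_zero_iff _ (hreg P' hP')).1 h0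
    have h3 := ord_pos_of_van _ h2 htS
    omega
  · intro v hv
    have h1 : v.ord (t * S) = v.ord t + v.ord S := v.ord_mul ht0 hS0
    have h2 : v.ord (t * S) = if v = P then 1 else 0 := by
      split_ifs with h
      · rw [h]; exact hP1
      · exact hP0 v hv h
    have h3 : v.ord t = if v = v₀ then 1 else 0 := by
      split_ifs with h
      · rw [h]; exact ht.ord_eq_one
      · exact ht.ord_eq_zero hv h
    rw [← h2, ← h3]
    omega

/-- outside the discs of the frame `S c` has neither zeros nor poles (`ord_eq_zero_of_red`). -/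
theorem Frame.Adapted.ord_other (hs : X.Adapted s) {c : ι → K} (hc : ∀ a, c a ∈ A.nonunits)
    {v : Place K F} (hy : ∀ b, rP hG v ≠ rP hG (X.y0 b)) (hz : ∀ l, rP hG v ≠ rP hG (X.z0 l)) :
    v.ord (Ssum s c) = 0 := by
  refine ord_eq_zero_of_red hG (hs.red_Ssum hc) one_ne_zero (Q := rP hG v) ?_ (Place.ord_one _) rfl
  intro v' hv'
  refine (reg_one v').add v' (reg_sum v' _ _ fun a _ => ?_)
  exact (reg_algebraMap v' (c a)).mul v' (hs.reg_other a (fun b => hv' ▸ hy b) (fun l => hv' ▸ hz l))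

/-- **the divisor of `S c`.**  Evaluate both sides at a place `v` and distinguish the disc of `v` (`exists_zero_mul` + its uniqueness clause, `ord_other`;
`Finsupp.finset_sum_apply`, `Finsupp.single_apply`; in each sum at most one index contributes because the discs are distinct). -/
theorem Frame.Adapted.principal (hs : X.Adapted s) {c : ι → K} (hc : ∀ a, c a ∈ A.nonunits)
    (Y : ι → Place K F) (hYd : ∀ b, rP hG (Y b) = rP hG (X.y0 b))
    (hY : ∀ b, val (Y b) (X.ty b * Ssum s c) = 0)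
    (Z : κ → Place K F) (hZd : ∀ l, rP hG (Z l) = rP hG (X.z0 l))
    (hZ : ∀ l, val (Z l) (X.tz l * Ssum s c) = 0) :
    (∑ a, Finsupp.single (Y a) (1 : ℤ)) + (∑ l, Finsupp.single (Z l) (1 : ℤ)) - X.Y0 - X.Z0
      ∈ Divisor.principal (K := K) (F := F) := by
  classical
  have hS := hs.red_Ssum hc
  refine ⟨Ssum s c, hS.ne_zero one_ne_zero, fun v => ?_⟩
  simp only [Finsupp.coe_sub, Pi.sub_apply, Finsupp.add_apply, Finsupp.finset_sum_apply, Frame.Y0,
    Frame.Z0, Finsupp.single_apply]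
  by_cases hy : ∃ b, rP hG v = rP hG (X.y0 b)
  · obtain ⟨b, hb⟩ := hy
    obtain ⟨P, hPd, hP0, hPu, hord⟩ :=
      exists_zero_mul (X.hy b) hS (fun v hv => hs.reg_y c b hv)
    have hYP : Y b = P := hPu _ (hYd b) (hY b)
    rw [hord v hb, ← hYP]
    have e1 : ∑ a, (if Y a = v then (1 : ℤ) else 0) = if v = Y b then 1 else 0 := by
      rw [Finset.sum_eq_single b]
      · simp only [eq_comm]
      · intro a _ hab
        rw [if_neg]
        intro h
        exact X.ne_y0_of_disc_y hab (v := X.y0 a) (by rw [← hYd a, h, hb]) rfl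
      · intro h
        exact absurd (Finset.mem_univ b) h
    have e2 : ∑ l, (if Z l = v then (1 : ℤ) else 0) = 0 := by
      refine Finset.sum_eq_zero fun l _ => ?_
      rw [if_neg]
      intro h
      exact X.ne_z0_of_disc_y (b := b) (v := X.z0 l) (by rw [← hZd l, h, hb]) l rfl
    have e3 : ∑ a, (if X.y0 a = v then (1 : ℤ) else 0) = if v = X.y0 b then 1 else 0 := by
      rw [Finset.sum_eq_single b]
      · simp only [eq_comm]
      · intro a _ hab
        rw [if_neg]
        intro h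
        exact X.ne_y0_of_disc_y hab hb h.symm
      · intro h
        exact absurd (Finset.mem_univ b) h
    have e4 : ∑ l, (if X.z0 l = v then (1 : ℤ) else 0) = 0 := by
      refine Finset.sum_eq_zero fun l _ => ?_
      rw [if_neg]
      intro h
      exact X.ne_z0_of_disc_y hb l h.symm
    rw [e1, e2, e3, e4]
    ring
  by_cases hz : ∃ l, rP hG v = rP hG (X.z0 l)
  · obtain ⟨l, hl⟩ := hz
    obtain ⟨P, hPd, hP0, hPu, hord⟩ :=
      exists_zero_mul (X.hz l) hS (fun v hv => hs.reg_z c l hv)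
    have hZP : Z l = P := hPu _ (hZd l) (hZ l)
    rw [hord v hl, ← hZP]
    have e1 : ∑ a, (if Y a = v then (1 : ℤ) else 0) = 0 := by
      refine Finset.sum_eq_zero fun a _ => ?_
      rw [if_neg]
      intro h
      exact X.ne_y0_of_disc_z (l := l) (v := X.y0 a) (by rw [← hYd a, h, hl]) a rfl
    have e2 : ∑ l', (if Z l' = v then (1 : ℤ) else 0) = if v = Z l then 1 else 0 := by
      rw [Finset.sum_eq_single l]
      · simp only [eq_comm]
      · intro l' _ hll
        rw [if_neg]
        intro h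
        exact X.ne_z0_of_disc_z hll (v := X.z0 l') (by rw [← hZd l', h, hl]) rfl
      · intro h
        exact absurd (Finset.mem_univ l) h
    have e3 : ∑ a, (if X.y0 a = v then (1 : ℤ) else 0) = 0 := by
      refine Finset.sum_eq_zero fun a _ => ?_
      rw [if_neg]
      intro h
      exact X.ne_y0_of_disc_z hl a h.symm
    have e4 : ∑ l', (if X.z0 l' = v then (1 : ℤ) else 0) = if v = X.z0 l then 1 else 0 := by
      rw [Finset.sum_eq_single l]
      · simp only [eq_comm]
      · intro l' _ hll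
        rw [if_neg]
        intro h
        exact X.ne_z0_of_disc_z hll hl h.symm
      · intro h
        exact absurd (Finset.mem_univ l) h
    rw [e1, e2, e3, e4]
    ring
  · push Not at hy hz
    rw [hs.ord_other hc hy hz]
    have e1 : ∑ a, (if Y a = v then (1 : ℤ) else 0) = 0 := by
      refine Finset.sum_eq_zero fun a _ => ?_
      rw [if_neg]
      intro h
      exact hy a (by rw [← h, hYd a])
    have e2 : ∑ l, (if Z l = v then (1 : ℤ) else 0) = 0 := by
      refine Finset.sum_eq_zero fun l _ => ?_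
      rw [if_neg]
      intro h
      exact hz l (by rw [← h, hZd l])
    have e3 : ∑ a, (if X.y0 a = v then (1 : ℤ) else 0) = 0 := by
      refine Finset.sum_eq_zero fun a _ => ?_
      rw [if_neg]
      intro h
      exact hy a (by rw [h])
    have e4 : ∑ l, (if X.z0 l = v then (1 : ℤ) else 0) = 0 := by
      refine Finset.sum_eq_zero fun l _ => ?_
      rw [if_neg]
      intro h
      exact hz l (by rw [h])
    rw [e1, e2, e3, e4]
    ring

/-! ### the residual divisor lemma -/

/-- the implicit equation for `τ = tz l (Z)`: with `α a` the Taylor coefficients of `tz l * s a` (`GoodOn.val_expand`),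
`a_n = [n = 1] + ∑_a c_a α_a(n)` satisfies `∑_{n<N} a_n τ^n ∈ τ^N A` for all `N` (cases `N = 0`, `N = 1`, `N ≥ 2`; use `val_z`). -/
theorem Frame.Adapted.implicit (hs : X.Adapted s) (hI : Iner V y G) (l : κ) :
    ∃ αc : ι → ℕ → K, (∀ a n, αc a n ∈ fixR A (βG G)) ∧
      ∀ (c : ι → K), (∀ a, c a ∈ A.nonunits) → ∀ Z : Place K F, rP hG Z = rP hG (X.z0 l) →
        val Z (X.tz l * Ssum s c) = 0 → ∀ N : ℕ, ∃ b ∈ A,
          ∑ n ∈ Finset.range N, ((if n = 1 then 1 else 0) + ∑ a, c a * αc a n) * val Z (X.tz l) ^ n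
            = val Z (X.tz l) ^ N * b := by
  choose αc hα1 hα2 using fun a => (hs.goodOn_z a l).val_expand (X.hz l) hI
  refine ⟨αc, hα1, ?_⟩
  intro c hc Z hZ h0 N
  set τ := val Z (X.tz l) with hτ
  have hz := hs.val_z c l hZ
  rw [h0, ← hτ] at hz
  choose b hbA hb using fun a => hα2 a N Z hZ
  have hB : ∑ a, c a * b a ∈ A :=
    A.toSubring.sum_mem fun a _ => A.mul_mem _ _ (A.nonunits_subset (hc a)) (hbA a)
  have h1 : ∑ a, c a * (∑ n ∈ Finset.range N, αc a n * τ ^ n) = -τ - τ ^ N * ∑ a, c a * b a := by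
    have h2 : τ + ∑ a, c a * (∑ n ∈ Finset.range N, αc a n * τ ^ n + τ ^ N * b a) = 0 := by
      rw [hz]
      congr 1
      exact Finset.sum_congr rfl fun a _ => by rw [hb a]
    simp only [mul_add, Finset.sum_add_distrib] at h2
    have h3 : ∑ a, c a * (τ ^ N * b a) = τ ^ N * ∑ a, c a * b a := by
      rw [Finset.mul_sum]
      exact Finset.sum_congr rfl fun a _ => by ring
    rw [h3] at h2
    linear_combination h2
  have key : ∑ n ∈ Finset.range N, ((if n = 1 then 1 else 0) + ∑ a, c a * αc a n) * τ ^ n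
      = (∑ n ∈ Finset.range N, (if n = 1 then (1 : K) else 0) * τ ^ n) - τ
        - τ ^ N * ∑ a, c a * b a := by
    simp only [add_mul, Finset.sum_add_distrib]
    have h4 : ∑ n ∈ Finset.range N, (∑ a, c a * αc a n) * τ ^ n
        = ∑ a, c a * (∑ n ∈ Finset.range N, αc a n * τ ^ n) := by
      simp only [Finset.sum_mul, Finset.mul_sum]
      rw [Finset.sum_comm]
      exact Finset.sum_congr rfl fun a _ => Finset.sum_congr rfl fun n _ => by ring
    rw [h4, h1]
    ring
  rw [key]
  rcases N with _ | _ | N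
  · refine ⟨-τ - ∑ a, c a * b a, ?_, by simp⟩
    refine A.sub_mem (A.neg_mem _ ?_) hB
    exact A.nonunits_subset ((X.hz l).val_mem hZ)
  · exact ⟨-1 - ∑ a, c a * b a, A.sub_mem (A.neg_mem _ A.one_mem) hB, by simp; ring⟩
  · refine ⟨-∑ a, c a * b a, A.neg_mem _ hB, ?_⟩
    have h5 : ∑ n ∈ Finset.range (N + 1 + 1), (if n = 1 then (1 : K) else 0) * τ ^ n = τ := by
      rw [Finset.sum_eq_single 1]
      · simp
      · intro n _ hn; simp [hn]
      · intro h; exact absurd (Finset.mem_range.2 (by omega)) h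
    rw [h5]
    ring

/-- a finite sum of elements of `m_A` lies in `m_A`. -/
theorem Res_sum_nonunits {J : Type*} (t : Finset J) (f : J → K) (h : ∀ j ∈ t, f j ∈ A.nonunits) :
    ∑ j ∈ t, f j ∈ A.nonunits := by
  classical
  induction t using Finset.induction_on with
  | empty => rw [Finset.sum_empty]; exact Poly_nonunits_zero
  | insert j t hj ih =>
    rw [Finset.sum_insert hj]
    exact Poly_nonunits_add (h j (Finset.mem_insert_self _ _))
      (ih fun i hi => h i (Finset.mem_insert_of_mem hi))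

/-- `1 + m_A` consists of units. -/
theorem Res_one_add_not_nonunits {x : K} (hx : x ∈ A.nonunits) : 1 + x ∉ A.nonunits := by
  intro h
  have h1 : (1 : K) ∈ A.nonunits := by
    have h2 : -x ∈ A.nonunits := by
      have := Poly_nonunits_mul (A := A) (a := -1) (A.neg_mem _ A.one_mem) hx
      simpa using this
    have := Poly_nonunits_add h h2
    simpa using this
  rw [ValuationSubring.mem_nonunits_iff, map_one] at h1
  exact lt_irrefl _ h1

/-- **(RL), separated form.** -/
theorem Frame.Adapted.residual_sep [CharZero K] {ϖ : K} (hs : X.Adapted s) (hI : Iner V y G)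
    (hB : Base A (βG G) ϖ) {W : Type*} [Finite W] [MulAction G W]
    (Y : ι → W → Place K F) (hYd : ∀ a w, rP hG (Y a w) = rP hG (X.y0 a))
    (hYe : ∀ a (σ : G) w, Y a (σ • w) = (σ : SemilinearAut K F) • Y a w)
    (hsep : ∀ w w', (∀ a, Y a w = Y a w') → w = w') :
    ∃ Z : κ → W → Place K F, (∀ l w, rP hG (Z l w) = rP hG (X.z0 l)) ∧
      (∀ l (σ : G) w, Z l (σ • w) = (σ : SemilinearAut K F) • Z l w) ∧
      (∀ w, (∑ a, Finsupp.single (Y a w) (1 : ℤ)) + (∑ l, Finsupp.single (Z l w) (1 : ℤ))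
        - X.Y0 - X.Z0 ∈ Divisor.principal (K := K) (F := F)) ∧
      ∀ l, IsPoly (fixR A (βG G)) (fun a w => val (Y a w) (X.ty a)) (fun w => val (Z l w) (X.tz l)) := by
  classical
  obtain ⟨T, hT⟩ : ∃ T : ι → W → K, T = fun a w => val (Y a w) (X.ty a) := ⟨_, rfl⟩
  have hTapp : ∀ a w, T a w = val (Y a w) (X.ty a) := fun a w => by rw [hT]
  rw [← hT]
  have hTe : ∀ a, Equi (βG G) (T a) := fun a => by
    rw [hT]; exact (X.hy a).inv.equi_val (Y a) (hYe a)
  have hTm : ∀ a w, T a w ∈ A.nonunits := fun a w => by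
    rw [hTapp]; exact (X.hy a).val_mem (hYd a w)
  have hTA : ∀ a w, T a w ∈ A := fun a w => A.nonunits_subset (hTm a w)
  have hsepT : ∀ w w', (∀ a, T a w = T a w') → w = w' := fun w w' h =>
    hsep w w' fun a => (X.hy a).eq_of_val_eq (hYd a w) (hYd a w') (by
      rw [← hTapp, ← hTapp]; exact h a)
  have hM : ∀ b a, IsPoly (fixR A (βG G)) T (fun w => val (Y b w) (X.ty b * s a)) := fun b a =>
    (hs.goodOn_y a b).isPoly_val (X.hy b) hI hB hTe hTA hsepT (Y b) (hYd b) (hYe b)
      ((isPoly_coord b).congr fun w => hTapp b w)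
  obtain ⟨c, hcP, hcm, hceq⟩ := exists_solve hB hTe hTm hsepT
    (fun w => Matrix.of fun b a => val (Y b w) (X.ty b * s a)) (fun b a => hM b a)
    (fun w b a => hs.val_sub_mem a b (hYd b w)) T (fun b => isPoly_coord b) hTm
  have hce : ∀ a, Equi (βG G) (c a) := fun a => (hcP a).equi hTe
  -- the zeros `Y`
  have hY0 : ∀ w b, val (Y b w) (X.ty b * Ssum s (fun a => c a w)) = 0 := by
    intro w b
    rw [hs.val_y _ b (hYd b w), ← hTapp, ← hceq b w]
    congr 1
    exact Finset.sum_congr rfl fun a _ => by rw [Matrix.of_apply, mul_comm]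
  -- the zeros `Z`
  have hex := fun (l : κ) (w : W) => exists_zero_mul (X.hz l) (hs.red_Ssum (c := fun a => c a w)
    (fun a => hcm a w)) (fun v hv => hs.reg_z (fun a => c a w) l hv)
  choose Z hZd hZ0 hZu hZo using hex
  have hZe : ∀ l (σ : G) w, Z l (σ • w) = (σ : SemilinearAut K F) • Z l w := by
    intro l σ w
    refine (hZu l (σ • w) _ ((hI.rP_smul hG σ.2 _).trans (hZd l w)) ?_).symm
    have h1 : Ssum s (fun a => c a (σ • w)) = (σ : SemilinearAut K F) • Ssum s (fun a => c a w) := by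
      rw [hs.smul_Ssum _ σ.2]
      congr 1
      funext a
      exact hce a σ w
    have h2 : X.tz l * Ssum s (fun a => c a (σ • w)) =
        (σ : SemilinearAut K F) • (X.tz l * Ssum s (fun a => c a w)) := by
      rw [smul_mul', (X.hz l).inv σ σ.2, h1]
    rw [h2, val_smul, hZ0, map_zero]
  refine ⟨Z, hZd, hZe, fun w => ?_, fun l => ?_⟩
  · exact hs.principal (fun a => hcm a w) (fun a => Y a w) (fun b => hYd b w) (hY0 w)
      (fun l => Z l w) (fun l => hZd l w) (fun l => hZ0 l w)
  · obtain ⟨αc, hαc, himp⟩ := hs.implicit hI l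
    refine isPoly_of_implicit hB hTe hTm hsepT (τ := fun w => val (Z l w) (X.tz l))
      ((X.hz l).inv.equi_val (Z l) (hZe l)) (fun w => (X.hz l).val_mem (hZd l w))
      (fun n w => (if n = 1 then 1 else 0) + ∑ a, c a w * αc a n) (fun n => ?_) (fun w => ?_)
      (fun N w => ?_)
    · refine IsPoly.add (isPoly_const ?_) (isPoly_sum _ _ fun a _ =>
        (hcP a).mul (isPoly_const (hαc a n)))
      split_ifs
      · exact (fixR A (βG G)).one_mem
      · exact (fixR A (βG G)).zero_mem
    · simp only [if_true]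
      refine Res_one_add_not_nonunits (Res_sum_nonunits _ _ fun a _ => ?_)
      rw [mul_comm]
      exact Poly_nonunits_mul (hαc a 1).1 (hcm a w)
    · exact himp (fun a => c a w) (fun a => hcm a w) (Z l w) (hZd l w) (hZ0 l w) N

/-- **(RL), general form**: no separation hypothesis, arbitrary family `T`.
(Apply `residual_sep` to the finite `G`-set `W' = {P : ι → Place K F | ∃ w, P = fun a => Y a w}` (a `SubMulAction` of the Pi action), `Y' a P = P a`; pull back along `w ↦ Y · w`
(`IsPoly.comp_right`) and substitute (`IsPoly.comp`).) -/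
theorem Frame.Adapted.residual [CharZero K] {ϖ : K} (hs : X.Adapted s) (hI : Iner V y G)
    (hB : Base A (βG G) ϖ) {W ι' : Type*} [Finite W] [MulAction G W] (T : ι' → W → K)
    (Y : ι → W → Place K F) (hYd : ∀ a w, rP hG (Y a w) = rP hG (X.y0 a))
    (hYe : ∀ a (σ : G) w, Y a (σ • w) = (σ : SemilinearAut K F) • Y a w)
    (hT : ∀ a, IsPoly (fixR A (βG G)) T (fun w => val (Y a w) (X.ty a))) :
    ∃ Z : κ → W → Place K F, (∀ l w, rP hG (Z l w) = rP hG (X.z0 l)) ∧
      (∀ l (σ : G) w, Z l (σ • w) = (σ : SemilinearAut K F) • Z l w) ∧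
      (∀ w, (∑ a, Finsupp.single (Y a w) (1 : ℤ)) + (∑ l, Finsupp.single (Z l w) (1 : ℤ))
        - X.Y0 - X.Z0 ∈ Divisor.principal (K := K) (F := F)) ∧
      ∀ l, IsPoly (fixR A (βG G)) T (fun w => val (Z l w) (X.tz l)) := by
  classical
  -- the image `G`-set
  let W' : Type _ := {P : ι → Place K F // ∃ w, P = fun a => Y a w}
  letI : MulAction G W' :=
    { smul := fun σ P => ⟨fun a => (σ : SemilinearAut K F) • P.1 a, by
        obtain ⟨w, hw⟩ := P.2
        exact ⟨σ • w, by funext a; rw [hYe, hw]⟩⟩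
      one_smul := fun P => Subtype.ext (by funext a; exact one_smul _ _)
      mul_smul := fun σ τ P => Subtype.ext (by funext a; exact mul_smul _ _ _) }
  let f : W → W' := fun w => ⟨fun a => Y a w, w, rfl⟩
  have hf : Function.Surjective f := by
    rintro ⟨P, w, rfl⟩
    exact ⟨w, rfl⟩
  haveI : Finite W' := Finite.of_surjective f hf
  obtain ⟨Z', h1, h2, h3, h4⟩ := hs.residual_sep hI hB (W := W') (fun a P => P.1 a)
    (by
      rintro a ⟨P, w, rfl⟩
      exact hYd a w)
    (fun a σ P => rfl)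
    (fun P P' h => Subtype.ext (funext h))
  refine ⟨fun l w => Z' l (f w), fun l w => h1 l _, ?_, fun w => h3 (f w), fun l => ?_⟩
  · intro l σ w
    have hfe : f (σ • w) = σ • f w := Subtype.ext (funext fun a => hYe a σ w)
    show Z' l (f (σ • w)) = _
    rw [hfe, h2]
  · exact ((h4 l).comp_right f).comp hT

/-! ### existence of the adapted functions -/

variable {Γ : Type*} [Group Γ] {α : Γ →* SemilinearAut K F} {ϖ : K}

/-- **(R1)**  For each `a`: `E = rD Z0`, `Q = rP (y0 a)`, `tt = red (ty a)`; `exists_pole_fn` on `Ft` (genus `g` by `Geo0.genus_eq`) gives `st ∈ L(E + Q) = L(rD (Z0 + y0 a))`, `(tt st)(Q) = 1`;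
`ℓ(E + Q) = 2 = deg + 1 - g`, so `Geo0.ImL_eq_of_nonspecial` + `Geo0.exists_fix_lift` (the divisor `Z0 + y0 a` is fixed: `fixD_of_support`, `IsParam.fixP`) give a fixed lift `s a`;
`Geo0.val_red` for `ty a * s a` (good on the disc by `goodOn_mul_of_mem_LSpace`) gives `res`. -/
theorem Frame.exists_adapted (X : Frame hG α.range ι κ) (hR : RatStr α V ϖ y) {g : ℕ}
    (hg : IsGenus K F g) (hκ : Fintype.card κ = g)
    (hns : Module.finrank k (LSpace (rD hG X.Z0)) = 1) : ∃ s : ι → F, X.Adapted s := by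
  classical
  obtain ⟨gt, hgt⟩ := exists_isGenus (Ω := k) (𝕃 := Ft)
  have hgg : g = gt := genus_eq hG hg hgt
  rw [← hgg] at hgt
  have hI := hR.iner
  have hdegE : Divisor.degree (rD hG X.Z0) = g := by rw [degree_rD, X.degree_Z0, hκ]
  have key : ∀ a, ∃ sa : F, Inv α.range sa ∧ sa ∈ V.O ∧
      sa ∈ LSpace (X.Z0 + Finsupp.single (X.y0 a) 1) ∧
      ∀ v, rP hG v = rP hG (X.y0 a) → res π (val v (X.ty a * sa)) = 1 := by
    intro a
    obtain ⟨tt, htred, htord⟩ := (X.hy a).red
    have hQ : rD hG X.Z0 (rP hG (X.y0 a)) = 0 := by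
      rw [X.rD_Z0, Finsupp.finsetSum_apply]
      refine Finset.sum_eq_zero fun l _ => ?_
      rw [Finsupp.single_apply, if_neg]
      intro h
      have h1 : Sum.elim (fun a => rP hG (X.y0 a)) (fun l => rP hG (X.z0 l)) (Sum.inr l) =
          Sum.elim (fun a => rP hG (X.y0 a)) (fun l => rP hG (X.z0 l)) (Sum.inl a) := h
      exact Sum.inr_ne_inl (X.inj h1)
    obtain ⟨st, hst, hval⟩ := exists_pole_fn hgt hdegE hns hQ htord
    have hrD : rD hG (X.Z0 + Finsupp.single (X.y0 a) 1) =
        rD hG X.Z0 + Finsupp.single (rP hG (X.y0 a)) 1 := by rw [map_add, rD_single]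
    have hfr : Module.finrank k (LSpace (rD hG X.Z0 + Finsupp.single (rP hG (X.y0 a)) 1)) = 2 := by
      have h1 := finrank_add_sumDiv hgt hdegE hns {rP hG (X.y0 a)}
      have h2 : sumDiv ({rP hG (X.y0 a)} : Finset (Place k Ft)) =
          Finsupp.single (rP hG (X.y0 a)) 1 := by
        unfold sumDiv
        rw [Finset.sum_singleton]
      rw [h2, Finset.card_singleton] at h1
      exact h1
    have hnsp := ImL_eq_of_nonspecial hG hg (X.Z0 + Finsupp.single (X.y0 a) 1) (by
      rw [hrD, hfr, map_add, X.degree_Z0, hκ, Divisor.degree_single, deg_eq_one_of_isAlgClosed]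
      push_cast
      ring)
    have hfixD : FixD α (X.Z0 + Finsupp.single (X.y0 a) 1) := by
      intro σ
      rw [smul_add, X.smul_Z0 hI ⟨σ, rfl⟩, SemilinearAut.smul_single,
        (X.hy a).fixP hI (α σ) ⟨σ, rfl⟩]
    have hmem : st ∈ ImL V (X.Z0 + Finsupp.single (X.y0 a) 1) := by
      rw [hnsp.1, hrD]; exact hst
    obtain ⟨sa, hfix, hL, hred⟩ := exists_fix_lift hG hR hfixD hmem
    have hinv : Inv α.range sa := inv_range_iff.2 hfix
    refine ⟨sa, hinv, hred.mem, hL, fun v hv => ?_⟩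
    have hgood : GoodOn hG α.range (rP hG (X.y0 a)) (X.ty a * sa) :=
      goodOn_mul_of_mem_LSpace (X.hy a) hL hinv hred.mem
        (by
          rw [Finsupp.add_apply, X.Z0_apply_eq_zero (fun l => X.ne_z0_of_disc_y rfl l),
            Finsupp.single_eq_same, zero_add])
        (fun v hv hne => by
          rw [Finsupp.add_apply, X.Z0_apply_eq_zero (fun l => X.ne_z0_of_disc_y hv l),
            Finsupp.single_apply, if_neg (Ne.symm hne), zero_add])
    have h5 := (val_red hG (htred.mul hred) hgood.reg).2 v hv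
    rw [h5.2, hval]
  choose s h1 h2 h3 h4 using key
  exact ⟨s, ⟨h1, h2, h3, h4⟩⟩

end Fermat.Agent.S19.RL
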